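import Fermat.Agent.Ribet.H712.WildFrameAsm
import Fermat.Agent.Ribet.H247.KDFinal

/-!
# Row 38, WALL-p, CORE-OUT WILD: `WildFrameStatement`, UNCONDITIONAL  (helper712)

`wildFrame : H704.CoreOut.WildFrameStatement` = `wildFrame_of` (`WildFrameAsm.lean`) applied to
`H247.kd247 : H704.CoreOut.KDStatement`.
-/

set_option autoImplicit false

namespace Fermat.Agent.Ribet.H712.Frame

/-- **WILD-FRAME** (`H704.CoreOut.WildFrameStatement`, verbatim, unconditional). -/
theorem wildFrame : Fermat.Agent.Ribet.H704.CoreOut.WildFrameStatement :=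
  wildFrame_of Fermat.Agent.Ribet.H247.kd247

end Fermat.Agent.Ribet.H712.Frame
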