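import Fermat.Agent.S28.H88.Theta
import Fermat.Agent.S37.H819.NormId
import Fermat.Agent.A2.H528.FrobCong
import Fermat.Agent.Ribet.H764.I3Spec

/-!
# Row 38, WALL-p, leaf DLOG (I2): the formal part  (helper712)

Formal Laurent series over a field `k`, `θ = q d/dq` (`S28.thetaL`).

* `IsLogL h G`  : `G · h = θ h` (`G` is the logarithmic derivative of `h`);
  calculus: `mul`, `inv`, `pow`, `zpow`, `C`, `prod`, `qExpand`, `infTwist`, uniqueness;
* `heckeSeries ℓ g` : the weight-2 Hecke operator `T_ℓ` on `q`-series,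
  `(T_ℓ g)_n = g_{nℓ} + ℓ · g_{n/ℓ}`;
* **`isLogL_kronNorm`** : `dlog (kronNorm ℓ r) = T_ℓ (dlog r)` when `ℓ ≠ 0` in `k` and `k` contains a
  primitive `ℓ`-th root of unity;
* `isLogL_pow_char` : `dlog (ρ ^ p) = 0` in characteristic `p`;
* `exists_isDlog` : every nonzero Laurent series has a logarithmic derivative in `k⟦q⟧`;
* `isDlog_zero_iff` : it vanishes iff the series lies in `k((q^p))` (characteristic `p`).
-/

set_option autoImplicit false

noncomputable section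

namespace Fermat.Agent.Ribet.H712

open HahnSeries ModularCurve
open Fermat.Agent.S28 Fermat.Agent.S24 Fermat.Agent.Ribet.H764.I3

variable {k : Type} [Field k]

/-- `G` is the logarithmic derivative of `h`: `G · h = θ h`. -/
def IsLogL (h G : LaurentSeries k) : Prop := G * h = thetaL k h

theorem isDlog_iff (h : LaurentSeries k) (g : PowerSeries k) :
    IsDlog h g ↔ IsLogL h (ofPowerSeries ℤ k g) := by
  unfold IsDlog IsTheta IsLogL
  constructor
  · intro H
    ext n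
    rw [H n, thetaL_coeff]
  · intro H n
    rw [H, thetaL_coeff]

namespace IsLogL

theorem one : IsLogL (1 : LaurentSeries k) 0 := by
  unfold IsLogL
  rw [zero_mul, h88_thetaL_one]

theorem mul {h₁ h₂ G₁ G₂ : LaurentSeries k} (H1 : IsLogL h₁ G₁) (H2 : IsLogL h₂ G₂) :
    IsLogL (h₁ * h₂) (G₁ + G₂) := by
  unfold IsLogL at *
  rw [h88_thetaL_mul, ← H1, ← H2]
  ring

theorem unique {h G₁ G₂ : LaurentSeries k} (h0 : h ≠ 0) (H1 : IsLogL h G₁) (H2 : IsLogL h G₂) :
    G₁ = G₂ := by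
  unfold IsLogL at *
  exact mul_right_cancel₀ h0 (H1.trans H2.symm)

theorem inv {h G : LaurentSeries k} (h0 : h ≠ 0) (H : IsLogL h G) : IsLogL h⁻¹ (-G) := by
  unfold IsLogL at *
  have h1 : thetaL k (h * h⁻¹) = 0 := by rw [mul_inv_cancel₀ h0, h88_thetaL_one]
  rw [h88_thetaL_mul, ← H] at h1
  have h2 : h * thetaL k h⁻¹ = -G := by
    have : G * h * h⁻¹ = G := by rw [mul_assoc, mul_inv_cancel₀ h0, mul_one]
    rw [this] at h1
    exact eq_neg_of_add_eq_zero_right h1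
  have h3 : thetaL k h⁻¹ = h⁻¹ * (h * thetaL k h⁻¹) := by
    rw [← mul_assoc, inv_mul_cancel₀ h0, one_mul]
  rw [h3, h2]
  ring

theorem pow {h G : LaurentSeries k} (H : IsLogL h G) (n : ℕ) :
    IsLogL (h ^ n) ((n : LaurentSeries k) * G) := by
  induction n with
  | zero => simpa using (one : IsLogL (1 : LaurentSeries k) 0)
  | succ n ih =>
    have := ih.mul H
    rw [pow_succ]
    convert this using 1
    push_cast
    ring

theorem zpow {h G : LaurentSeries k} (h0 : h ≠ 0) (H : IsLogL h G) (n : ℤ) :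
    IsLogL (h ^ n) ((n : LaurentSeries k) * G) := by
  rcases n with n | n
  · simpa using H.pow n
  · have := (H.pow (n + 1)).inv (pow_ne_zero _ h0)
    rw [zpow_negSucc]
    convert this using 1
    push_cast
    ring

theorem const (c : k) : IsLogL (HahnSeries.C c : LaurentSeries k) 0 := by
  unfold IsLogL
  rw [zero_mul, h88_thetaL_C]

theorem prod {ι : Type*} (s : Finset ι) (h G : ι → LaurentSeries k)
    (H : ∀ i ∈ s, IsLogL (h i) (G i)) : IsLogL (∏ i ∈ s, h i) (∑ i ∈ s, G i) := by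
  classical
  induction s using Finset.induction_on with
  | empty => simpa using (one : IsLogL (1 : LaurentSeries k) 0)
  | insert b s hb ih =>
    rw [Finset.prod_insert hb, Finset.sum_insert hb]
    exact (H b (Finset.mem_insert_self b s)).mul
      (ih fun i hi => H i (Finset.mem_insert_of_mem hi))

theorem qExpand {h G : LaurentSeries k} (H : IsLogL h G) (ℓ : ℕ) [NeZero ℓ] :
    IsLogL (qExpand k ℓ h) ((ℓ : LaurentSeries k) * qExpand k ℓ G) := by
  unfold IsLogL at *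
  rw [h88_thetaL_qExpand, ← H, map_mul]
  ring

theorem thetaL_infTwist (u : kˣ) (h : LaurentSeries k) :
    thetaL k (infTwist u h) = infTwist u (thetaL k h) := by
  ext n
  rw [thetaL_coeff, infTwist_coeff, infTwist_coeff, thetaL_coeff]
  ring

theorem infTwist {h G : LaurentSeries k} (H : IsLogL h G) (u : kˣ) :
    IsLogL (infTwist u h) (infTwist u G) := by
  unfold IsLogL at *
  rw [thetaL_infTwist, ← H, map_mul]

/-- `dlog (ρ ^ p) = 0` in characteristic `p`. -/
theorem pow_char (p : ℕ) [CharP k p] (ρ : LaurentSeries k) : IsLogL (ρ ^ p) 0 := by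
  unfold IsLogL
  rw [zero_mul]
  rcases Nat.eq_zero_or_pos p with h0 | hpos
  · subst h0
    rw [pow_zero, h88_thetaL_one]
  · obtain ⟨n, rfl⟩ := Nat.exists_eq_succ_of_ne_zero hpos.ne'
    rw [h88_thetaL_pow]
    have : (((n + 1 : ℕ) : k)) = 0 := CharP.cast_eq_zero k (n + 1)
    have h2 : (((n + 1 : ℕ)) : LaurentSeries k) = 0 := by
      have h3 : (((n + 1 : ℕ)) : LaurentSeries k) = HahnSeries.C (((n + 1 : ℕ)) : k) := by
        rw [map_natCast]
      rw [h3, this, map_zero]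
    rw [h2, zero_mul, zero_mul]

end IsLogL

/-! ## The weight-2 Hecke operator on `q`-series -/

/-- `U_ℓ` on power series: `(U_ℓ g)_n = g_{nℓ}`. -/
def uSeries (ℓ : ℕ) (g : PowerSeries k) : PowerSeries k :=
  PowerSeries.mk fun n => PowerSeries.coeff (n * ℓ) g

/-- The weight-2 Hecke operator on `q`-series: `(T_ℓ g)_n = g_{nℓ} + ℓ · g_{n/ℓ}`. -/
def heckeSeries (ℓ : ℕ) (g : PowerSeries k) : PowerSeries k :=
  PowerSeries.mk fun n =>
    PowerSeries.coeff (n * ℓ) g + (if ℓ ∣ n then (ℓ : k) * PowerSeries.coeff (n / ℓ) g else 0)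

@[simp] theorem coeff_uSeries (ℓ : ℕ) (g : PowerSeries k) (n : ℕ) :
    PowerSeries.coeff n (uSeries ℓ g) = PowerSeries.coeff (n * ℓ) g := by
  rw [uSeries, PowerSeries.coeff_mk]

@[simp] theorem coeff_heckeSeries (ℓ : ℕ) (g : PowerSeries k) (n : ℕ) :
    PowerSeries.coeff n (heckeSeries ℓ g) =
      PowerSeries.coeff (n * ℓ) g +
        (if ℓ ∣ n then (ℓ : k) * PowerSeries.coeff (n / ℓ) g else 0) := by
  rw [heckeSeries, PowerSeries.coeff_mk]

/-! ## `dlog` of the Kronecker norm -/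

open Fermat.Agent.S37.H400

theorem natCast_laurent_eq_C (n : ℕ) : ((n : ℕ) : LaurentSeries k) = HahnSeries.C (n : k) := by
  rw [map_natCast]

theorem coeff_natCast_mul (n : ℕ) (x : LaurentSeries k) (m : ℤ) :
    (((n : ℕ) : LaurentSeries k) * x).coeff m = (n : k) * x.coeff m := by
  rw [natCast_laurent_eq_C, HahnSeries.C_mul_eq_smul, HahnSeries.coeff_smul, smul_eq_mul]

/-- `∑_{b<ℓ} G(ζ^b q) = ℓ · V_ℓ (U_ℓ G)`. -/
theorem sum_infTwist (ℓ : ℕ) [NeZero ℓ] (ζ : kˣ) (hζ : IsPrimitiveRoot (ζ : k) ℓ)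
    (G : LaurentSeries k) :
    ∑ b ∈ Finset.range ℓ, infTwist (ζ ^ b) G =
      (ℓ : LaurentSeries k) * qExpand k ℓ (secL ℓ 0 G) := by
  have hζu : IsPrimitiveRoot ζ ℓ := IsPrimitiveRoot.coe_units_iff.mp hζ
  ext n
  rw [HahnSeries.coeff_sum, coeff_natCast_mul]
  simp only [infTwist_coeff]
  have hpow : ∀ b : ℕ, (((ζ ^ b) ^ n : kˣ) : k) = (((ζ ^ n : kˣ) : k)) ^ b := by
    intro b
    rw [← Units.val_pow_eq_pow_val, ← zpow_natCast ζ b, ← zpow_mul, mul_comm, zpow_mul,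
      zpow_natCast]
  simp only [hpow]
  rw [← Finset.mul_sum]
  by_cases hn : (ℓ : ℤ) ∣ n
  · obtain ⟨m, rfl⟩ := hn
    rw [qExpand_coeff_mul, secL_coeff, add_zero]
    have h1 : ((ζ ^ ((ℓ : ℤ) * m) : kˣ) : k) = 1 := by
      rw [zpow_mul, zpow_natCast, hζu.pow_eq_one, one_zpow, Units.val_one]
    simp only [h1, one_pow, Finset.sum_const, Finset.card_range, nsmul_eq_mul, mul_one]
    ring
  · rw [qExpand_coeff_of_not_dvd ℓ _ hn, mul_zero]
    have hω : ((ζ ^ n : kˣ) : k) ≠ 1 := by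
      intro h
      apply hn
      have : ζ ^ n = 1 := Units.ext (by rw [h, Units.val_one])
      exact (hζu.zpow_eq_one_iff_dvd n).mp this
    have hωℓ : (((ζ ^ n : kˣ) : k)) ^ ℓ = 1 := by
      rw [← Units.val_pow_eq_pow_val, ← zpow_natCast (ζ ^ n) ℓ, ← zpow_mul, mul_comm, zpow_mul,
        zpow_natCast, hζu.pow_eq_one, one_zpow, Units.val_one]
    have hsum : ∑ b ∈ Finset.range ℓ, (((ζ ^ n : kˣ) : k)) ^ b = 0 := by
      have h := geom_sum_mul (((ζ ^ n : kˣ) : k)) ℓ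
      rw [hωℓ, sub_self] at h
      rcases mul_eq_zero.mp h with h0 | h0
      · exact h0
      · exact absurd (sub_eq_zero.mp h0) hω
    rw [hsum, mul_zero]

/-- `dlog det (secMat ℓ r) = U_ℓ (dlog r)`. -/
theorem isLogL_det_secMat (ℓ : ℕ) [NeZero ℓ] (hℓ : (ℓ : k) ≠ 0) (ζ : kˣ)
    (hζ : IsPrimitiveRoot (ζ : k) ℓ) {r G : LaurentSeries k} (H : IsLogL r G) :
    IsLogL (secMat ℓ r).det (secL ℓ 0 G) := by
  have h1 : IsLogL (qExpand k ℓ (secMat ℓ r).det) (∑ b ∈ Finset.range ℓ, infTwist (ζ ^ b) G) := by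
    rw [Fermat.Agent.S37.H819.qExpand_det_secMat ℓ ζ hζ]
    exact IsLogL.prod _ _ _ (fun b _ => H.infTwist (ζ ^ b))
  unfold IsLogL at h1 ⊢
  rw [sum_infTwist ℓ ζ hζ, h88_thetaL_qExpand] at h1
  apply qExpand_injective (R := k) (N := ℓ)
  rw [map_mul]
  have hℓL : ((ℓ : ℕ) : LaurentSeries k) ≠ 0 := by
    rw [natCast_laurent_eq_C]
    intro h
    exact hℓ (HahnSeries.C_injective (h.trans (map_zero _).symm))
  refine mul_left_cancel₀ hℓL ?_
  rw [← mul_assoc]
  exact h1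

/-- **`dlog (kronNorm ℓ r) = ℓ · V_ℓ (dlog r) + U_ℓ (dlog r)`.** -/
theorem isLogL_kronNorm (ℓ : ℕ) [NeZero ℓ] (hℓ : (ℓ : k) ≠ 0) (ζ : kˣ)
    (hζ : IsPrimitiveRoot (ζ : k) ℓ) {r G : LaurentSeries k} (H : IsLogL r G) :
    IsLogL (kronNorm ℓ r) ((ℓ : LaurentSeries k) * qExpand k ℓ G + secL ℓ 0 G) :=
  (H.qExpand ℓ).mul (isLogL_det_secMat ℓ hℓ ζ hζ H)

theorem ofPowerSeries_heckeSeries (ℓ : ℕ) [NeZero ℓ] (g : PowerSeries k) :
    ofPowerSeries ℤ k (heckeSeries ℓ g) =
      (ℓ : LaurentSeries k) * qExpand k ℓ (ofPowerSeries ℤ k g)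
        + secL ℓ 0 (ofPowerSeries ℤ k g) := by
  have hℓpos : 0 < ℓ := Nat.pos_of_ne_zero (NeZero.ne ℓ)
  ext n
  rw [HahnSeries.coeff_add, coeff_natCast_mul, secL_coeff, add_zero]
  rcases le_or_gt 0 n with hn | hn
  · obtain ⟨m, rfl⟩ := Int.eq_ofNat_of_zero_le hn
    have e1 : ((ℓ : ℤ) * (m : ℤ)) = ((m * ℓ : ℕ) : ℤ) := by push_cast; ring
    rw [ofPowerSeries_apply_coeff, coeff_heckeSeries, e1, ofPowerSeries_apply_coeff, add_comm]
    congr 1
    by_cases hd : ℓ ∣ m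
    · rw [if_pos hd]
      obtain ⟨j, rfl⟩ := hd
      have e2 : ((ℓ * j : ℕ) : ℤ) = (ℓ : ℤ) * (j : ℤ) := by push_cast; ring
      rw [e2, qExpand_coeff_mul, ofPowerSeries_apply_coeff, Nat.mul_div_cancel_left j hℓpos]
    · rw [if_neg hd, qExpand_coeff_of_not_dvd ℓ _ (by exact_mod_cast hd), mul_zero]
  · have h1 : (ofPowerSeries ℤ k (heckeSeries ℓ g)).coeff n = 0 :=
      ModularCurve.ofPowerSeries_coeff_of_neg _ hn
    have h2 : (ofPowerSeries ℤ k g).coeff ((ℓ : ℤ) * n) = 0 :=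
      ModularCurve.ofPowerSeries_coeff_of_neg _
        (mul_neg_of_pos_of_neg (by exact_mod_cast hℓpos) hn)
    have h3 : (qExpand k ℓ (ofPowerSeries ℤ k g)).coeff n = 0 := by
      by_cases hd : (ℓ : ℤ) ∣ n
      · obtain ⟨j, rfl⟩ := hd
        rw [qExpand_coeff_mul]
        refine ModularCurve.ofPowerSeries_coeff_of_neg _ ?_
        by_contra hj
        have : (0 : ℤ) ≤ (ℓ : ℤ) * j := mul_nonneg (by exact_mod_cast hℓpos.le) (not_lt.mp hj)
        omega
      · exact qExpand_coeff_of_not_dvd ℓ _ hd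
    rw [h1, h2, h3, mul_zero, add_zero]

/-- **`dlog (kronNorm ℓ r) = T_ℓ (dlog r)`** on `q`-series. -/
theorem isDlog_kronNorm (ℓ : ℕ) [NeZero ℓ] (hℓ : (ℓ : k) ≠ 0) (ζ : kˣ)
    (hζ : IsPrimitiveRoot (ζ : k) ℓ) {r : LaurentSeries k} {g : PowerSeries k}
    (H : IsDlog r g) : IsDlog (kronNorm ℓ r) (heckeSeries ℓ g) := by
  rw [isDlog_iff] at H ⊢
  rw [ofPowerSeries_heckeSeries]
  exact isLogL_kronNorm ℓ hℓ ζ hζ H

/-! ## Existence and vanishing of `dlog` -/

/-- `θ` on power series, coefficientwise. -/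
def thetaPS (u : PowerSeries k) : PowerSeries k :=
  PowerSeries.mk fun n => (n : k) * PowerSeries.coeff n u

theorem thetaL_ofPowerSeries (u : PowerSeries k) :
    thetaL k (ofPowerSeries ℤ k u) = ofPowerSeries ℤ k (thetaPS u) := by
  ext n
  rw [thetaL_coeff]
  rcases le_or_gt 0 n with hn | hn
  · obtain ⟨m, rfl⟩ := Int.eq_ofNat_of_zero_le hn
    rw [ofPowerSeries_apply_coeff, ofPowerSeries_apply_coeff, thetaPS, PowerSeries.coeff_mk]
    push_cast
    rfl
  · rw [ModularCurve.ofPowerSeries_coeff_of_neg _ hn, ModularCurve.ofPowerSeries_coeff_of_neg _ hn,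
      mul_zero]

theorem thetaL_single (n : ℤ) (c : k) :
    thetaL k (HahnSeries.single n c) = HahnSeries.C (n : k) * HahnSeries.single n c := by
  ext m
  rw [thetaL_coeff, HahnSeries.C_mul_eq_smul, HahnSeries.coeff_smul, smul_eq_mul]
  rcases eq_or_ne m n with rfl | h
  · rfl
  · rw [HahnSeries.coeff_single_of_ne h, mul_zero, mul_zero]

/-- Every nonzero Laurent series over a field has a logarithmic derivative in `k⟦q⟧`. -/
theorem exists_isDlog {r : LaurentSeries k} (hr : r ≠ 0) : ∃ g : PowerSeries k, IsDlog r g := by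
  set u := r.powerSeriesPart with hu
  have hu0 : PowerSeries.constantCoeff u ≠ 0 := by
    rw [← PowerSeries.coeff_zero_eq_constantCoeff_apply, hu, LaurentSeries.powerSeriesPart_coeff]
    simpa using (HahnSeries.coeff_order_eq_zero (x := r)).not.mpr hr
  have hr' : r = HahnSeries.single r.order 1 * ofPowerSeries ℤ k u :=
    (LaurentSeries.single_order_mul_powerSeriesPart r).symm
  have huinv : u⁻¹ * u = 1 := PowerSeries.inv_mul_cancel u hu0
  refine ⟨PowerSeries.C (r.order : k) + thetaPS u * u⁻¹, ?_⟩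
  rw [isDlog_iff]
  unfold IsLogL
  have h1 : thetaL k r = HahnSeries.C (r.order : k) * r
      + HahnSeries.single r.order 1 * ofPowerSeries ℤ k (thetaPS u) := by
    conv_lhs => rw [hr']
    rw [h88_thetaL_mul, thetaL_single, thetaL_ofPowerSeries, mul_assoc, ← hr']
  rw [h1, map_add, map_mul, ofPowerSeries_C, add_mul]
  congr 1
  conv_lhs => rw [hr']
  have h2 : ofPowerSeries ℤ k u⁻¹ * ofPowerSeries ℤ k u = 1 := by
    rw [← map_mul, huinv, map_one]
  calc ofPowerSeries ℤ k (thetaPS u) * ofPowerSeries ℤ k u⁻¹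
        * (HahnSeries.single r.order 1 * ofPowerSeries ℤ k u)
      = HahnSeries.single r.order 1 * ofPowerSeries ℤ k (thetaPS u)
          * (ofPowerSeries ℤ k u⁻¹ * ofPowerSeries ℤ k u) := by ring
    _ = _ := by rw [h2, mul_one]

/-- In characteristic `p` the logarithmic derivative vanishes exactly on `k((q^p))`. -/
theorem isDlog_zero_iff (p : ℕ) [CharP k p] (r : LaurentSeries k) :
    IsDlog r 0 ↔ ∀ n : ℤ, ¬ (p : ℤ) ∣ n → r.coeff n = 0 := by
  unfold IsDlog IsTheta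
  simp only [map_zero, zero_mul, HahnSeries.coeff_zero]
  constructor
  · intro H n hn
    have h := H n
    rcases mul_eq_zero.mp h.symm with h0 | h0
    · exact absurd ((CharP.intCast_eq_zero_iff k p n).mp h0) hn
    · exact h0
  · intro H n
    by_cases hn : (p : ℤ) ∣ n
    · rw [(CharP.intCast_eq_zero_iff k p n).mpr hn, zero_mul]
    · rw [H n hn, mul_zero]

end Fermat.Agent.Ribet.H712

end
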