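import Fermat.Agent.Ribet.H884.SlopeSpec
import Fermat.Agent.S37.H400.KronNorm

/-!
# Row 38, WALL-p, leaf DLOG (I2): calculus of reductions  (helper712)

`IsRedL A F r` : `r ∈ k((t))` is a reduction of the Laurent series `F ∈ ℚ̄((t))` at the Gauss
valuation of `A`: `F · U₂ = c · U₁`, `U₁, U₂` primitive `A`-integral, `r · Ū₂ = Ū₁`
(`H884.IsRedInf N A f r` is `IsRedL A f r` by definition).

* `IsRedL.one/cst/mul/inv/pow/zpow` : reductions are multiplicative;
* `IsRedL.kronNorm` : `kronNorm ℓ` of a reduction is a reduction of `kronNorm ℓ`;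
* `IsRedL.unique` : a reduction is unique up to a nonzero constant of `k`;
* `kronNorm_cst`, `kronNorm_ne_zero`.
-/

set_option autoImplicit false

noncomputable section

namespace Fermat.Agent.Ribet.H712

open HahnSeries ModularCurve
open Fermat.Agent.S24 Fermat.Agent.A2.H708 Fermat.Agent.Ribet.H884 Fermat.Agent.S37.H400

/-! ## The Kronecker norm of a constant, nonvanishing -/

section Kron

variable {R : Type*} [CommRing R]

theorem qExpand_C' (ℓ : ℕ) [NeZero ℓ] (c : R) :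
    qExpand R ℓ (HahnSeries.C c : LaurentSeries R) = HahnSeries.C c := by
  show qExpand R ℓ (HahnSeries.single 0 c) = HahnSeries.single 0 c
  rw [qExpand_single, mul_zero]

theorem kronNorm_C (ℓ : ℕ) [NeZero ℓ] (c : R) :
    kronNorm ℓ (HahnSeries.C c : LaurentSeries R) = HahnSeries.C (c ^ (ℓ + 1)) := by
  have h : secMat ℓ (HahnSeries.C c : LaurentSeries R)
      = Matrix.scalar (Fin ℓ) (HahnSeries.C c : LaurentSeries R) := by
    conv_lhs => rw [← qExpand_C' ℓ c]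
    exact secMat_qExpand ℓ _
  rw [kronNorm, qExpand_C', h, Matrix.scalar_apply, Matrix.det_diagonal, Finset.prod_const,
    Finset.card_univ, Fintype.card_fin, ← pow_succ', map_pow]

theorem cst_eq_C {L : Type*} [Field L] (c : L) :
    Fermat.Agent.A2.H708.cst c = (HahnSeries.C c : LaurentSeries L) :=
  algebraMap_laurentSeries_eq_single L c

theorem kronNorm_cst {L : Type*} [Field L] (ℓ : ℕ) [NeZero ℓ] (c : L) :
    kronNorm ℓ (Fermat.Agent.A2.H708.cst c) = Fermat.Agent.A2.H708.cst (c ^ (ℓ + 1)) := by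
  rw [cst_eq_C, cst_eq_C, kronNorm_C]

theorem kronNorm_ne_zero {k : Type*} [Field k] (ℓ : ℕ) [NeZero ℓ] {x : LaurentSeries k}
    (hx : x ≠ 0) : kronNorm ℓ x ≠ 0 := by
  intro h
  have h1 : kronNorm ℓ (x * x⁻¹) = 1 := by rw [mul_inv_cancel₀ hx, kronNorm_one]
  rw [kronNorm_mul, h, zero_mul] at h1
  exact zero_ne_one h1

end Kron

/-! ## Reductions -/

variable (A : ValuationSubring Kbar)

/-- `r` is a reduction of `F` at the Gauss valuation attached to `A`. -/
def IsRedL (F : LaurentSeries Kbar) (r : LaurentSeries (kA A)) : Prop :=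
  ∃ (c : Kbar) (U₁ U₂ : LaurentSeries A), c ≠ 0 ∧ red A U₁ ≠ 0 ∧ red A U₂ ≠ 0 ∧
    F * incl A U₂ = cst c * incl A U₁ ∧ r * red A U₂ = red A U₁

theorem isRedInf_iff (N : ℕ) [NeZero N] (f : FF N) (r : LaurentSeries (kA A)) :
    IsRedInf N A f r ↔ IsRedL A (f : LaurentSeries Kbar) r := Iff.rfl

variable {A}

namespace IsRedL

variable {F F' : LaurentSeries Kbar} {r r' : LaurentSeries (kA A)}

theorem red_ne_zero (h : IsRedL A F r) : r ≠ 0 := by
  obtain ⟨c, U₁, U₂, -, h1, -, -, hr⟩ := h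
  intro h0
  rw [h0, zero_mul] at hr
  exact h1 hr.symm

theorem ne_zero (h : IsRedL A F r) : F ≠ 0 := by
  obtain ⟨c, U₁, U₂, hc, h1, -, hF, -⟩ := h
  intro h0
  rw [h0, zero_mul] at hF
  exact mul_ne_zero (cst_ne_zero hc) (incl_ne_zero A (ne_zero_of_red_ne_zero A h1)) hF.symm

theorem cst {c : Kbar} (hc : c ≠ 0) : IsRedL A (Fermat.Agent.A2.H708.cst c) 1 := by
  refine ⟨c, 1, 1, hc, ?_, ?_, ?_, ?_⟩
  · rw [map_one]; exact one_ne_zero
  · rw [map_one]; exact one_ne_zero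
  · simp only [map_one, mul_one]
  · rw [map_one, mul_one]

theorem one : IsRedL A (1 : LaurentSeries Kbar) 1 := by
  have h := cst (A := A) (one_ne_zero : (1 : Kbar) ≠ 0)
  rwa [cst_one] at h

theorem mul (h : IsRedL A F r) (h' : IsRedL A F' r') : IsRedL A (F * F') (r * r') := by
  obtain ⟨c, U₁, U₂, hc, h1, h2, hF, hr⟩ := h
  obtain ⟨c', U₁', U₂', hc', h1', h2', hF', hr'⟩ := h'
  refine ⟨c * c', U₁ * U₁', U₂ * U₂', mul_ne_zero hc hc', ?_, ?_, ?_, ?_⟩
  · rw [map_mul]; exact mul_ne_zero h1 h1'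
  · rw [map_mul]; exact mul_ne_zero h2 h2'
  · rw [map_mul, map_mul, cst_mul]
    calc F * F' * (incl A U₂ * incl A U₂') = (F * incl A U₂) * (F' * incl A U₂') := by ring
      _ = _ := by rw [hF, hF']; ring
  · rw [map_mul, map_mul]
    calc r * r' * (red A U₂ * red A U₂') = (r * red A U₂) * (r' * red A U₂') := by ring
      _ = _ := by rw [hr, hr']

theorem inv (h : IsRedL A F r) : IsRedL A F⁻¹ r⁻¹ := by
  have hF0 := h.ne_zero
  have hr0 := h.red_ne_zero
  obtain ⟨c, U₁, U₂, hc, h1, h2, hF, hr⟩ := h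
  refine ⟨c⁻¹, U₂, U₁, inv_ne_zero hc, h2, h1, ?_, ?_⟩
  · have hcc : Fermat.Agent.A2.H708.cst c⁻¹ * Fermat.Agent.A2.H708.cst c = 1 :=
      cst_inv_mul_cst hc
    calc F⁻¹ * incl A U₁ = F⁻¹ * ((Fermat.Agent.A2.H708.cst c⁻¹ * Fermat.Agent.A2.H708.cst c)
          * incl A U₁) := by rw [hcc, one_mul]
      _ = F⁻¹ * (Fermat.Agent.A2.H708.cst c⁻¹ * (Fermat.Agent.A2.H708.cst c * incl A U₁)) := by
          ring
      _ = F⁻¹ * (Fermat.Agent.A2.H708.cst c⁻¹ * (F * incl A U₂)) := by rw [hF]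
      _ = (F⁻¹ * F) * (Fermat.Agent.A2.H708.cst c⁻¹ * incl A U₂) := by ring
      _ = _ := by rw [inv_mul_cancel₀ hF0, one_mul]
  · calc r⁻¹ * red A U₁ = r⁻¹ * (r * red A U₂) := by rw [hr]
      _ = (r⁻¹ * r) * red A U₂ := by ring
      _ = _ := by rw [inv_mul_cancel₀ hr0, one_mul]

theorem pow (h : IsRedL A F r) (n : ℕ) : IsRedL A (F ^ n) (r ^ n) := by
  induction n with
  | zero => simpa using (one : IsRedL A (1 : LaurentSeries Kbar) 1)
  | succ n ih => rw [pow_succ, pow_succ]; exact ih.mul h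

theorem zpow (h : IsRedL A F r) (n : ℤ) : IsRedL A (F ^ n) (r ^ n) := by
  rcases n with n | n
  · simpa using h.pow n
  · rw [zpow_negSucc, zpow_negSucc]
    exact (h.pow (n + 1)).inv

theorem kronNorm (h : IsRedL A F r) (ℓ : ℕ) [NeZero ℓ] :
    IsRedL A (kronNorm ℓ F) (kronNorm ℓ r) := by
  obtain ⟨c, U₁, U₂, hc, h1, h2, hF, hr⟩ := h
  refine ⟨c ^ (ℓ + 1), Fermat.Agent.S37.H400.kronNorm ℓ U₁, Fermat.Agent.S37.H400.kronNorm ℓ U₂,
    pow_ne_zero _ hc, ?_, ?_, ?_, ?_⟩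
  · rw [coeffMap_kronNorm]; exact kronNorm_ne_zero ℓ h1
  · rw [coeffMap_kronNorm]; exact kronNorm_ne_zero ℓ h2
  · rw [coeffMap_kronNorm, coeffMap_kronNorm, ← kronNorm_mul, hF, kronNorm_mul]
    congr 1
    exact kronNorm_cst ℓ c
  · rw [coeffMap_kronNorm, coeffMap_kronNorm, ← kronNorm_mul, hr]

/-- A reduction is unique up to a nonzero constant. -/
theorem unique (h : IsRedL A F r) (h' : IsRedL A F r') :
    ∃ e : kA A, e ≠ 0 ∧ r' = HahnSeries.C e * r := by
  have hF0 := h.ne_zero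
  obtain ⟨c, U₁, U₂, hc, h1, h2, hF, hr⟩ := h
  obtain ⟨c', U₁', U₂', hc', h1', h2', hF', hr'⟩ := h'
  -- `cst (c / c') * incl (U₁ U₂') = incl (U₁' U₂)`
  have key : Fermat.Agent.A2.H708.cst (c * c'⁻¹) * incl A (U₁ * U₂') = incl A (U₁' * U₂) := by
    have e1 : Fermat.Agent.A2.H708.cst c * incl A U₁ * incl A U₂'
        = Fermat.Agent.A2.H708.cst c' * incl A U₁' * incl A U₂ := by
      rw [← hF, ← hF']; ring
    rw [map_mul, map_mul, cst_mul]
    calc Fermat.Agent.A2.H708.cst c * Fermat.Agent.A2.H708.cst c'⁻¹ * (incl A U₁ * incl A U₂')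
        = Fermat.Agent.A2.H708.cst c'⁻¹
            * (Fermat.Agent.A2.H708.cst c * incl A U₁ * incl A U₂') := by ring
      _ = (Fermat.Agent.A2.H708.cst c'⁻¹ * Fermat.Agent.A2.H708.cst c')
            * (incl A U₁' * incl A U₂) := by rw [e1]; ring
      _ = _ := by rw [cst_inv_mul_cst hc', one_mul]
  have key' : Fermat.Agent.A2.H708.cst (c' * c⁻¹) * incl A (U₁' * U₂) = incl A (U₁ * U₂') := by
    rw [← key, ← mul_assoc, ← cst_mul]
    have : c' * c⁻¹ * (c * c'⁻¹) = 1 := by field_simp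
    rw [this, cst_one, one_mul]
  have hp1 : red A (U₁ * U₂') ≠ 0 := by rw [map_mul]; exact mul_ne_zero h1 h2'
  have hp2 : red A (U₁' * U₂) ≠ 0 := by rw [map_mul]; exact mul_ne_zero h1' h2
  have hm1 : c * c'⁻¹ ∈ A := mem_of_cst_mul_prim A hp1 key
  have hm2 : c' * c⁻¹ ∈ A := mem_of_cst_mul_prim A hp2 key'
  set a : A := ⟨c * c'⁻¹, hm1⟩ with ha
  set b : A := ⟨c' * c⁻¹, hm2⟩ with hb
  have hab : a * b = 1 := by
    apply Subtype.ext
    show c * c'⁻¹ * (c' * c⁻¹) = 1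
    field_simp
  have hkeyA : cstA A a * (U₁ * U₂') = U₁' * U₂ := by
    apply incl_injective A
    rw [map_mul, incl_cstA]
    exact key
  have hred := congrArg (red A) hkeyA
  rw [map_mul, red_cstA, map_mul, map_mul] at hred
  have ha0 : IsLocalRing.residue A a ≠ 0 := by
    intro h0
    have : IsLocalRing.residue A (a * b) = 0 := by rw [map_mul, h0, zero_mul]
    rw [hab, map_one] at this
    exact one_ne_zero this
  refine ⟨IsLocalRing.residue A a, ha0, ?_⟩
  -- `ā · (r Ū₂) Ū₂' = (r' Ū₂') Ū₂`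
  rw [← hr, ← hr'] at hred
  have hU : red A U₂ * red A U₂' ≠ 0 := mul_ne_zero h2 h2'
  apply mul_right_cancel₀ hU
  have hC : (HahnSeries.C (IsLocalRing.residue A a) : LaurentSeries (kA A))
      = HahnSeries.single 0 (IsLocalRing.residue A a) := rfl
  calc r' * (red A U₂ * red A U₂') = r' * red A U₂' * red A U₂ := by ring
    _ = HahnSeries.single 0 (IsLocalRing.residue A a) * (r * red A U₂ * red A U₂') := hred.symm
    _ = _ := by rw [hC]; ring

end IsRedL

end Fermat.Agent.Ribet.H712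

end
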