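import Fermat.Agent.Ribet.H712.DlogSpec
import Fermat.Agent.Ribet.H712.DlogFormal
import Fermat.Agent.Ribet.H712.DlogRed

/-!
# Row 38, WALL-p, leaf DLOG (I2): the one-component core  (helper712)

`dlogCore_of : H884.ResFieldStatement → DlogCoreStatement`.

For a function `g` of level `N = pM'` satisfying the Hecke relations
`Nm_α(β g) = c · g^{a_ℓ} · u^p`, with reduction `r` (at the Gauss valuation at `∞`):

* `q`-expansion of the Hecke norm = Kronecker norm (`S37.H819.normId`), so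
  `kronNorm ℓ g = c · g^a · u^p` in `ℚ̄((t))`;
* reduce: `kronNorm ℓ r = ē · r^a · ρ^p` in `k((t))` (`IsRedL.kronNorm`, `IsRedL.unique`);
* take `dlog`: `T_ℓ (dlog r) = a · dlog r` (`isDlog_kronNorm`, `IsLogL.pow_char`).
-/

set_option autoImplicit false
set_option synthInstance.maxHeartbeats 400000
set_option maxHeartbeats 1000000

noncomputable section

namespace Fermat.Agent.Ribet.H712

open AlgebraicCurve ModularCurve HahnSeries
open Fermat.Agent.S24 Fermat.Agent.A2.H708 Fermat.Agent.A2.H528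
open Fermat.Agent.Ribet.Spec Fermat.Agent.Ribet.H944.Wall Fermat.Agent.Ribet.H884
open Fermat.Agent.S37.H400 Fermat.Agent.Ribet.H764.I3

/-- The `q`-expansion of the Hecke norm is the Kronecker norm (`S37.H819.normId`). -/
theorem coe_heckeNormP (N : ℕ) [NeZero N] (ℓ : ℕ) [NeZero ℓ] (hℓ : ℓ.Prime) (hℓN : ¬ ℓ ∣ N)
    (g : FF N) :
    ((heckeNormP N ⟨ℓ, hℓ⟩ g : FF N) : LaurentSeries Kbar)
      = kronNorm ℓ (g : LaurentSeries Kbar) :=
  Fermat.Agent.S37.H819.normId N ℓ hℓ hℓN g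

/-- Reductions exist (normal form of `A2/H708`). -/
theorem exists_isRedL {p : ℕ} (hp : p.Prime) {A : ValuationSubring Kbar}
    (hA : A.LiesOverPrime p) (N : ℕ) [NeZero N] {u : FF N} (hu : u ≠ 0) :
    ∃ ρ : LaurentSeries (kA A), IsRedL A (u : LaurentSeries Kbar) ρ := by
  have hu' : (u : LaurentSeries Kbar) ≠ 0 := fun h => hu (Subtype.ext h)
  obtain ⟨c, U₁, U₂, hc, h1, h2, -, -, h⟩ :=
    exists_normal_form (A := A) (intGen_full N)
      (attainsMax_Qbar hp.ne_zero hA (modularFunctionFieldFull N)) u.2 hu'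
  refine ⟨red A U₁ * (red A U₂)⁻¹, c, U₁, U₂, hc, h1, h2, h, ?_⟩
  rw [mul_assoc, inv_mul_cancel₀ h2, mul_one]

theorem coe_heckeRel {N p : ℕ} [NeZero N] (c : Kbar) (g u : FF N) (a : ℤ) :
    ((algebraMap Kbar (FF N) c * g ^ a * u ^ p : FF N) : LaurentSeries Kbar)
      = cst c * (g : LaurentSeries Kbar) ^ a * (u : LaurentSeries Kbar) ^ p := by
  have h := map_zpow₀ (laurentBaseChange Kbar (modularFunctionFieldFull N)).val g a
  exact congrArg₂ (· * ·) (congrArg₂ (· * ·) rfl h) rfl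

/-- **CORE.** -/
theorem dlogCore_of (hRes : ResFieldStatement) : DlogCoreStatement := by
  intro p M' _ _ _ hp hpM A hA S a g r hg hred hdiv hns hrel
  obtain ⟨hAC, hchar⟩ := hRes p hp A hA
  haveI := hAC
  haveI := hchar
  obtain ⟨h, hh, hh0, hdivh⟩ := hdiv
  have hredL : IsRedL A (g : LaurentSeries Kbar) r := hred
  have hr0 : r ≠ 0 := hredL.red_ne_zero
  obtain ⟨gs, hgs⟩ := exists_isDlog hr0
  have hgs0 : gs ≠ 0 := by
    rintro rfl
    exact hns ((isDlog_zero_iff p r).mp hgs)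
  refine ⟨S ∪ {p}, h, gs, Finset.subset_union_left, hh0, hdivh, by rw [hh]; exact hgs, hgs0, ?_⟩
  intro ℓ hℓ hℓM hℓS n
  rw [Finset.mem_union, not_or, Finset.mem_singleton] at hℓS
  obtain ⟨hℓS, hℓp⟩ := hℓS
  have hℓN : ¬ ℓ ∣ p * M' := by
    intro hd
    rcases (Nat.Prime.dvd_mul hℓ).mp hd with h1 | h1
    · exact hℓp ((Nat.prime_dvd_prime_iff_eq hℓ hp).mp h1)
    · exact hℓM h1
  haveI : NeZero ℓ := ⟨hℓ.ne_zero⟩
  obtain ⟨c, u, hc, hu, hrel'⟩ := hrel ⟨ℓ, hℓ⟩ hℓS hℓN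
  -- the relation on `q`-expansions
  have hL : kronNorm ℓ (g : LaurentSeries Kbar)
      = cst c * (g : LaurentSeries Kbar) ^ (a ℓ) * (u : LaurentSeries Kbar) ^ p := by
    rw [← coe_heckeNormP (p * M') ℓ hℓ hℓN g, hrel', coe_heckeRel]
  -- reduce
  obtain ⟨ρ, hρ⟩ := exists_isRedL hp hA (p * M') hu
  have hred2 : IsRedL A (kronNorm ℓ (g : LaurentSeries Kbar)) (1 * r ^ (a ℓ) * ρ ^ p) := by
    rw [hL]
    exact ((IsRedL.cst hc).mul (hredL.zpow (a ℓ))).mul (hρ.pow p)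
  obtain ⟨e, he, hEq⟩ := (hredL.kronNorm ℓ).unique hred2
  -- take `dlog`
  have hG : IsLogL r (ofPowerSeries ℤ (kA A) gs) := (isDlog_iff r gs).mp hgs
  have hℓk : ((ℓ : ℕ) : kA A) ≠ 0 := by
    intro h0
    have := (CharP.cast_eq_zero_iff (kA A) p ℓ).mp h0
    exact hℓp ((Nat.prime_dvd_prime_iff_eq hp hℓ).mp this).symm
  haveI : NeZero ((ℓ : ℕ) : kA A) := ⟨hℓk⟩
  obtain ⟨ζ₀, hζ₀⟩ := HasEnoughRootsOfUnity.exists_primitiveRoot (kA A) ℓ
  obtain ⟨ζ, rfl⟩ := hζ₀.isUnit (NeZero.ne ℓ)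
  have h1 : IsLogL (kronNorm ℓ r) (ofPowerSeries ℤ (kA A) (heckeSeries ℓ gs)) :=
    (isDlog_iff _ _).mp (isDlog_kronNorm ℓ hℓk ζ hζ₀ hgs)
  have h2 : IsLogL (HahnSeries.C e * kronNorm ℓ r)
      (0 + ofPowerSeries ℤ (kA A) (heckeSeries ℓ gs)) := (IsLogL.const e).mul h1
  have h3 : IsLogL (1 * r ^ (a ℓ) * ρ ^ p)
      (0 + ((a ℓ : ℤ) : LaurentSeries (kA A)) * ofPowerSeries ℤ (kA A) gs + 0) :=
    ((IsLogL.one).mul (hG.zpow hr0 (a ℓ))).mul (IsLogL.pow_char p ρ)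
  rw [hEq] at h3
  have hCe : (HahnSeries.C e : LaurentSeries (kA A)) ≠ 0 := fun h0 =>
    he (HahnSeries.C_injective (h0.trans (map_zero _).symm))
  have hne : HahnSeries.C e * kronNorm ℓ r ≠ 0 := mul_ne_zero hCe (kronNorm_ne_zero ℓ hr0)
  have hfin := IsLogL.unique hne h2 h3
  rw [zero_add, zero_add, add_zero] at hfin
  have hint : ((a ℓ : ℤ) : LaurentSeries (kA A)) = HahnSeries.C ((a ℓ : ℤ) : kA A) :=
    (map_intCast (HahnSeries.C : kA A →+* LaurentSeries (kA A)) (a ℓ)).symm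
  have hcf : (ofPowerSeries ℤ (kA A) (heckeSeries ℓ gs)).coeff (n : ℤ) =
      (((a ℓ : ℤ) : LaurentSeries (kA A)) * ofPowerSeries ℤ (kA A) gs).coeff (n : ℤ) :=
    congrArg (fun z => z.coeff (n : ℤ)) hfin
  rw [ofPowerSeries_apply_coeff, coeff_heckeSeries, hint, HahnSeries.C_mul_eq_smul,
    HahnSeries.coeff_smul, smul_eq_mul, ofPowerSeries_apply_coeff] at hcf
  exact hcf

end Fermat.Agent.Ribet.H712

end
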