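import Fermat.Agent.Ribet.H884.SlopeSpec
import Fermat.Agent.S29.H395.KummerCorr

/-!
# Row 38, WALL-p, leaf DLOG (I2) = `H884.DlogOutStatement`: frozen decomposition + proved glue
  (sub-architect helper712)

Setting of `H884/SlopeSpec.lean`: `N = p·M'`, `x ∈ 𝓕 ∖ 𝒮` a new `T_ℓ`-eigenclass of `J₀(N)[p]`,
`f` a Kummer generator (`div f = p·D`), `r₁ = red_∞ f`, `r₂ = red_∞ (w_N f)` its two reductions.
One of them, `r`, is not in `k((t^p))`; put `h := r`, `g := θh / h`.  What has to be proved is that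
`g` is a `T_ℓ`-eigenseries (weight 2) with eigenvalue `a_ℓ`, for almost all `ℓ`.

## The proof
* (KH)  `T_ℓ x = a x`, `div f = p D`  ⟹  `Nm_α(β f) = c · f^a · u^p`  (`HeckeRel`; Kummer theory of the
        Prelude correspondence, `S29/H395/KummerCorr` + "a function without zeros is constant").
* (FH)  the Hecke norm commutes with the Fricke involution: `Nm_α(β (w_N f)) = w_N (Nm_α(β f))`
        (so the relation (KH) also holds for `w_N f`: this is what makes the `0`-component work).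
* (NI)  `q`-expansion of `Nm_α(β f)` is the formal Kronecker norm `kronNorm ℓ f` (`S37.H819.normId`,
        ON MAIN), and `kronNorm` commutes with the reduction `A((t)) → k((t))` (`S37.H400`).
* (RED) reductions are multiplicative and unique up to `kˣ`; hence
        `kronNorm ℓ r = c̄ · r^a · ρ^p` in `k((t))`.
* (FD)  formal identity in `k((t))`, `ℓ ≠ char k`:  `dlog (kronNorm ℓ r) = T_ℓ (dlog r)`
        (`T_ℓ g = Σ (g_{nℓ} + ℓ g_{n/ℓ}) tⁿ`), and `dlog (ρ^p) = 0` in characteristic `p`.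
  ⟹ `T_ℓ g = a · g`.

## Leaves
| leaf | Prop | content | owner |
|---|---|---|---|
| KH   | `KummerHeckeStatement` | Hecke relation for a Kummer generator of an eigenclass | WANTED (2) |
| FH   | `FrickeHeckeStatement` | `heckeNorm ∘ wF = wF ∘ heckeNorm` (`ℓ ∤ N`) | WANTED (2), see recipe |
| FC   | `H884.FinClosedStatement` | `finSet` is a subgroup | helper712 (reductions multiply) |
| CORE | `DlogCoreStatement` | (NI) + (RED) + (FD) on ONE component | helper712 |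

Recipe for FH: `T := Nm_α ∘ β`, `Tᵗ := Nm_β ∘ α` (norms along `heckeAlphaBar/heckeBetaBar N ℓ`).
(1) transport of structure along `W_{Nℓ}` with Fricke compatibility `W_{Nℓ} α = β W_N`,
`W_{Nℓ} β = α W_N` (A2/Mod leaf L5 at the pair of levels `(N, ℓ)`) gives `T (W_N f) = W_N (Tᵗ f)`;
(2) `Tᵗ = T`: transport along the partial Atkin–Lehner involution `w_ℓ` of `FF (N ℓ)`
(`w_ℓ α = β`, `w_ℓ β = α`; construct it as `A2/H528/Fricke.lean` constructs `wF`, with the matrix
`[[ℓa, b], [Nℓc, ℓd]]`, `ℓad - Nbc = 1`: `j(dτ) ↔ j(dℓτ)` for `d ∣ N`).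

## Proved here
`dlogOut_of : FinClosed → KummerHecke → FrickeHecke → DlogCore → H884.DlogOutStatement`.
-/

set_option autoImplicit false
set_option synthInstance.maxHeartbeats 400000
set_option maxHeartbeats 1000000

noncomputable section

namespace Fermat.Agent.Ribet.H712

open AlgebraicCurve ModularCurve HahnSeries
open Fermat.Agent.S24 Fermat.Agent.A2.H708 Fermat.Agent.A2.H528
open Fermat.Agent.Ribet.Spec Fermat.Agent.Ribet.H944.Wall Fermat.Agent.Ribet.H884

/-- The function-level Hecke norm `Nm_α ∘ β` at a prime `ℓ` (`S29.H395.heckeNorm`). -/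
def heckeNormP (N : ℕ) [NeZero N] (ℓ : Nat.Primes) (g : FF N) : FF N :=
  haveI : NeZero (ℓ : ℕ) := ⟨ℓ.2.ne_zero⟩
  Fermat.Agent.S29.H395.heckeNorm N (ℓ : ℕ) g

/-- **The Hecke relation** for a function `g` at `ℓ` with eigenvalue `a` modulo `p`-th powers and
constants: `Nm_α(β g) = c · g^a · u^p`. -/
def HeckeRel (N p : ℕ) [NeZero N] (ℓ : Nat.Primes) (a : ℤ) (g : FF N) : Prop :=
  ∃ (c : Kbar) (u : FF N), c ≠ 0 ∧ u ≠ 0 ∧
    heckeNormP N ℓ g = algebraMap Kbar (FF N) c * g ^ a * u ^ p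

/-- **(KH)** Kummer theory of the Hecke correspondence: a Kummer generator of a `T_ℓ`-eigenclass
satisfies the Hecke relation. -/
def KummerHeckeStatement : Prop :=
  ∀ (N p : ℕ) [NeZero N], p ≠ 0 → ∀ ℓ : Nat.Primes, ¬ (ℓ : ℕ) ∣ N →
    ∀ (x : JZero N) (f : FF N), IsKummerGen N p f x →
    ∀ a : ℤ, heckeOperatorBar N ℓ x = a • x → HeckeRel N p ℓ a f

/-- **(FH)** the Hecke norm commutes with the Fricke involution (`ℓ ∤ N`). -/
def FrickeHeckeStatement : Prop :=
  ∀ (N : ℕ) [NeZero N] (ℓ : Nat.Primes), ¬ (ℓ : ℕ) ∣ N → ∀ f : FF N,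
    heckeNormP N ℓ (wF N f) = wF N (heckeNormP N ℓ f)

/-- **(CORE)** the one-component statement: a function `g` of level `pM'` satisfying the Hecke
relations with eigenvalues `a_ℓ`, with a reduction `r` (on the `∞`-component) which has slopes `0`
and is not a `p`-th power, gives the nonzero eigen-`dlog`. -/
def DlogCoreStatement : Prop :=
  ∀ (p M' : ℕ) [NeZero M'] [NeZero p] [NeZero (p * M')], p.Prime → ¬ p ∣ M' →
    ∀ A : ValuationSubring Kbar, A.LiesOverPrime p →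
    ∀ (S : Finset ℕ) (a : ℕ → ℤ) (g : FF (p * M')) (r : LaurentSeries (kA A)), g ≠ 0 →
      IsRedInf (p * M') A g r → PDivSeries p M' r → ¬ SplitSeries p r →
      (∀ ℓ : Nat.Primes, (ℓ : ℕ) ∉ S → ¬ (ℓ : ℕ) ∣ p * M' → HeckeRel (p * M') p ℓ (a ℓ) g) →
      ∃ (S' : Finset ℕ) (h : modularFunctionFieldFullC (kA A) M') (gs : PowerSeries (kA A)),
        S ⊆ S' ∧ h ≠ 0 ∧
        (∀ Q : Place (kA A) (modularFunctionFieldFullC (kA A) M'), (p : ℤ) ∣ Q.ord h) ∧
        H764.I3.IsDlog (h : LaurentSeries (kA A)) gs ∧ gs ≠ 0 ∧ H764.I3.IsEigenSeries M' S' a gs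

/-- The Hecke relation is transported by the Fricke involution. -/
theorem HeckeRel.fricke (hFH : FrickeHeckeStatement) {N p : ℕ} [NeZero N] {ℓ : Nat.Primes}
    (hℓ : ¬ (ℓ : ℕ) ∣ N) {a : ℤ} {g : FF N} (h : HeckeRel N p ℓ a g) :
    HeckeRel N p ℓ a (wF N g) := by
  obtain ⟨c, u, hc, hu, h⟩ := h
  refine ⟨c, wF N u, hc, ?_, ?_⟩
  · intro h0
    exact hu ((wF N).injective (h0.trans (map_zero (wF N)).symm))
  · rw [hFH N ℓ hℓ g, h, map_mul, map_mul, map_pow, map_zpow₀, AlgEquiv.commutes]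

/-- **DLOG (I2) from its leaves.** -/
theorem dlogOut_of (hFC : FinClosedStatement) (hKH : KummerHeckeStatement)
    (hFH : FrickeHeckeStatement) (hCore : DlogCoreStatement) : DlogOutStatement := by
  intro p M' _ _ _ hp _ hpM A hA S a x hx hxS _ heig
  obtain ⟨f, hfK, r₁, r₂, h1, h2, hd1, hd2⟩ := hFC p M' hp hpM A hA x hx
  have hns : ¬ (SplitSeries p r₁ ∧ SplitSeries p r₂) := fun hs =>
    hxS (AddSubgroup.subset_closure ⟨f, hfK, r₁, r₂, h1, h2, hd1, hd2, hs.1, hs.2⟩)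
  have hrel : ∀ ℓ : Nat.Primes, (ℓ : ℕ) ∉ S → ¬ (ℓ : ℕ) ∣ p * M' →
      HeckeRel (p * M') p ℓ (a ℓ) f :=
    fun ℓ hℓS hℓN => hKH (p * M') p hp.ne_zero ℓ hℓN x f hfK (a ℓ) (heig ℓ hℓS)
  by_cases hs1 : SplitSeries p r₁
  · have hs2 : ¬ SplitSeries p r₂ := fun h => hns ⟨hs1, h⟩
    have hw0 : wF (p * M') f ≠ 0 := fun h0 =>
      hfK.1 ((wF (p * M')).injective (h0.trans (map_zero (wF (p * M'))).symm))
    exact hCore p M' hp hpM A hA S a (wF (p * M') f) r₂ hw0 h2 hd2 hs2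
      (fun ℓ hℓS hℓN => (hrel ℓ hℓS hℓN).fricke hFH hℓN)
  · exact hCore p M' hp hpM A hA S a f r₁ hfK.1 h1 hd1 hs1 hrel

end Fermat.Agent.Ribet.H712

end
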