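import Mathlib

/-!
# Row 38, WALL-p, CORE-OUT WILD, frame assembly (helper712): the Kummer cover `ι(K)(h) ⊆ Ω`

Generic, Mathlib only.  `ι : K →+* Ω` a homomorphism of fields, `h ∈ Ω`.

* `cov ι h : Subfield Ω`            : the subfield generated by `ι(K)` and `h`;
* `covMap ι h : K →+* cov ι h`, `covGen ι h`, `covAlgebra ι h` (a `def`, not an instance);
* `adjoin_covGen`                   : `K⟮h⟯ = ⊤` in `cov ι h`;
* `covIncl`                         : `cov ι h → cov ι' h` for `ι = ι' ∘ φ`;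
* Kummer case (`ζ ∈ K` primitive `p`-th root of unity, `h ^ p = ι a`, `h ∉ ι(K)`):
  `isGalois_cov`, `finiteDimensional_cov`, `covDeck` (the deck transformation `h ↦ ι(ζ) h`),
  `exists_pow_eq_covDeck` (it generates the Galois group), `covDeck_eq_of_ringHom`
  (every ring homomorphism `cov ι h → Ω` which is the inclusion on `ι(K)` and maps `h` to
  `ι(ζ) h` is `covDeck`).
-/

set_option autoImplicit false

noncomputable section

namespace Fermat.Agent.Ribet.H712.Frame

open Polynomial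

section Cover

variable {K Ω : Type*} [Field K] [Field Ω] (ι : K →+* Ω) (h : Ω)

/-- `ι(K)(h) ⊆ Ω`. -/
def cov : Subfield Ω := Subfield.closure (Set.range ι ∪ {h})

theorem map_mem_cov (x : K) : ι x ∈ cov ι h := Subfield.subset_closure (Or.inl ⟨x, rfl⟩)

theorem gen_mem_cov : h ∈ cov ι h := Subfield.subset_closure (Or.inr rfl)

/-- The structure map `K → ι(K)(h)`. -/
def covMap : K →+* ↥(cov ι h) := ι.codRestrict (cov ι h) (map_mem_cov ι h)

@[simp]
theorem coe_covMap (x : K) : ((covMap ι h x : ↥(cov ι h)) : Ω) = ι x := rfl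

/-- The generator `h` of the cover. -/
def covGen : ↥(cov ι h) := ⟨h, gen_mem_cov ι h⟩

@[simp]
theorem coe_covGen : ((covGen ι h : ↥(cov ι h)) : Ω) = h := rfl

/-- The `K`-algebra structure of the cover (a `def`; use `letI`). -/
@[reducible]
def covAlgebra : Algebra K ↥(cov ι h) := (covMap ι h).toAlgebra

theorem cov_le {T : Subfield Ω} (h1 : ∀ x : K, ι x ∈ T) (h2 : h ∈ T) : cov ι h ≤ T := by
  rw [cov, Subfield.closure_le]
  rintro z (⟨x, rfl⟩ | hz)
  · exact h1 x
  · rw [Set.mem_singleton_iff] at hz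
    rw [hz]
    exact h2

/-- `K⟮h⟯ = ⊤` in the cover. -/
theorem adjoin_covGen :
    letI := covAlgebra ι h
    IntermediateField.adjoin K ({covGen ι h} : Set ↥(cov ι h)) = ⊤ := by
  letI := covAlgebra ι h
  rw [eq_top_iff]
  rintro ⟨z, hz⟩ -
  -- the subfield of `Ω` of elements whose restriction lies in `K⟮h⟯`
  let T : Subfield Ω :=
    (IntermediateField.adjoin K ({covGen ι h} : Set ↥(cov ι h))).toSubfield.map
      (cov ι h).subtype
  have hT : cov ι h ≤ T := by
    apply cov_le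
    · intro x
      exact ⟨covMap ι h x,
        (IntermediateField.adjoin K ({covGen ι h} : Set ↥(cov ι h))).algebraMap_mem x, rfl⟩
    · exact ⟨covGen ι h, IntermediateField.mem_adjoin_simple_self K (covGen ι h), rfl⟩
  obtain ⟨y, hy, hyz⟩ := hT hz
  have : y = ⟨z, hz⟩ := Subtype.ext hyz
  rw [← this]
  exact hy

/-- Two ring homomorphisms `cov ι h → Ω'` which agree on `ι(K)` and at `h` are equal. -/
theorem covHom_ext {Ω' : Type*} [Field Ω'] (f g : ↥(cov ι h) →+* Ω')
    (h1 : ∀ x : K, f (covMap ι h x) = g (covMap ι h x)) (h2 : f (covGen ι h) = g (covGen ι h)) :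
    f = g := by
  -- the equaliser, pushed to `Ω`
  let T : Subfield Ω := (RingHom.eqLocusField f g).map (cov ι h).subtype
  have hT : cov ι h ≤ T := by
    apply cov_le
    · intro x
      exact ⟨covMap ι h x, h1 x, rfl⟩
    · exact ⟨covGen ι h, h2, rfl⟩
  ext ⟨z, hz⟩
  obtain ⟨y, hy, hyz⟩ := hT hz
  have : y = ⟨z, hz⟩ := Subtype.ext hyz
  rw [← this]
  exact hy

/-- Inclusion of covers along `ι = ι' ∘ φ`. -/
def covIncl {K' : Type*} [Field K'] (ι' : K' →+* Ω) (φ : K →+* K')
    (hφ : ∀ x, ι' (φ x) = ι x) : ↥(cov ι h) →+* ↥(cov ι' h) where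
  toFun z := ⟨z.1, cov_le ι h (fun x => hφ x ▸ map_mem_cov ι' h (φ x)) (gen_mem_cov ι' h) z.2⟩
  map_one' := Subtype.ext rfl
  map_mul' _ _ := Subtype.ext rfl
  map_zero' := Subtype.ext rfl
  map_add' _ _ := Subtype.ext rfl

@[simp]
theorem coe_covIncl {K' : Type*} [Field K'] (ι' : K' →+* Ω) (φ : K →+* K')
    (hφ : ∀ x, ι' (φ x) = ι x) (z : ↥(cov ι h)) :
    ((covIncl ι h ι' φ hφ z : ↥(cov ι' h)) : Ω) = (z : Ω) := by
  cases z
  rfl

end Cover

section Kummer

variable {K Ω : Type*} [Field K] [Field Ω] (ι : K →+* Ω) (h : Ω)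
variable {p : ℕ} (hp : p.Prime) {ζ : K} (hζ : IsPrimitiveRoot ζ p) {a : K}
  (ha : h ^ p = ι a) (hh : h ∉ Set.range ι)

include hp hζ ha hh in
/-- `a` is not a `p`-th power in `K`. -/
theorem not_pow_of_not_mem (b : K) : b ^ p ≠ a := by
  intro hb
  apply hh
  haveI : NeZero p := ⟨hp.ne_zero⟩
  by_cases hb0 : ι b = 0
  · have h0 : h ^ p = 0 := by rw [ha, ← hb, map_pow, hb0, zero_pow hp.ne_zero]
    exact ⟨0, by rw [map_zero]; exact (pow_eq_zero_iff hp.ne_zero).mp h0 |>.symm⟩
  · have h1 : (h / ι b) ^ p = 1 := by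
      rw [div_pow, ha, ← hb, map_pow, div_self (pow_ne_zero p hb0)]
    have hζ' : IsPrimitiveRoot (ι ζ) p := hζ.map_of_injective ι.injective
    obtain ⟨i, -, hi⟩ := hζ'.eq_pow_of_pow_eq_one h1
    refine ⟨ζ ^ i * b, ?_⟩
    rw [map_mul, map_pow, hi]
    field_simp

include hp hζ ha hh in
theorem irreducible_cov : Irreducible (X ^ p - C a : K[X]) :=
  X_pow_sub_C_irreducible_of_prime hp (not_pow_of_not_mem ι h hp hζ ha hh)

include ha in
theorem covGen_pow :
    letI := covAlgebra ι h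
    (covGen ι h) ^ p = algebraMap K ↥(cov ι h) a := by
  letI := covAlgebra ι h
  exact Subtype.ext ha

include hp hζ ha in
theorem isSplittingField_cov :
    letI := covAlgebra ι h
    IsSplittingField K ↥(cov ι h) (X ^ p - C a : K[X]) := by
  letI := covAlgebra ι h
  have hα := covGen_pow ι h ha
  have hint : IsIntegral K (covGen ι h) :=
    ⟨X ^ p - C a, monic_X_pow_sub_C a hp.ne_zero, by
      rw [eval₂_sub, eval₂_X_pow, eval₂_C, hα, sub_self]⟩
  constructor
  · rw [Polynomial.map_sub, Polynomial.map_pow, Polynomial.map_C, Polynomial.map_X]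
    exact X_pow_sub_C_splits_of_isPrimitiveRoot
      (hζ.map_of_injective (algebraMap K ↥(cov ι h)).injective) hα
  · rw [eq_top_iff, ← IntermediateField.top_toSubalgebra, ← adjoin_covGen ι h,
      IntermediateField.adjoin_simple_toSubalgebra_of_isAlgebraic hint.isAlgebraic]
    apply Algebra.adjoin_mono
    rw [Set.singleton_subset_iff, mem_rootSet_of_ne (X_pow_sub_C_ne_zero hp.pos a),
      aeval_def, eval₂_sub, eval₂_X_pow, eval₂_C, hα, sub_self]

include hp hζ ha in
theorem finiteDimensional_cov :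
    letI := covAlgebra ι h
    FiniteDimensional K ↥(cov ι h) := by
  letI := covAlgebra ι h
  haveI := isSplittingField_cov ι h hp hζ ha
  exact Polynomial.IsSplittingField.finiteDimensional ↥(cov ι h) (X ^ p - C a : K[X])

include hp hζ ha hh in
theorem isGalois_cov :
    letI := covAlgebra ι h
    IsGalois K ↥(cov ι h) := by
  letI := covAlgebra ι h
  haveI := isSplittingField_cov ι h hp hζ ha
  exact isGalois_of_isSplittingField_X_pow_sub_C
    ⟨ζ, (mem_primitiveRoots hp.pos).mpr hζ⟩ (irreducible_cov ι h hp hζ ha hh) ↥(cov ι h)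

/-- **The deck transformation** `h ↦ ζ h` of the cover. -/
def covDeck :
    letI := covAlgebra ι h
    ↥(cov ι h) ≃ₐ[K] ↥(cov ι h) :=
  letI := covAlgebra ι h
  haveI := isSplittingField_cov ι h hp hζ ha
  haveI : NeZero p := ⟨hp.ne_zero⟩
  (autEquivZmod (irreducible_cov ι h hp hζ ha hh) ↥(cov ι h) hζ).symm
    (Multiplicative.ofAdd (1 : ZMod p))

theorem covDeck_gen :
    letI := covAlgebra ι h
    covDeck ι h hp hζ ha hh (covGen ι h) = covMap ι h ζ * covGen ι h := by
  letI := covAlgebra ι h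
  haveI := isSplittingField_cov ι h hp hζ ha
  haveI : NeZero p := ⟨hp.ne_zero⟩
  have h1 := autEquivZmod_symm_apply_natCast (irreducible_cov ι h hp hζ ha hh) ↥(cov ι h)
    (covGen_pow ι h ha) hζ 1
  rw [Nat.cast_one, pow_one, Algebra.smul_def] at h1
  exact h1

theorem coe_covDeck_gen :
    letI := covAlgebra ι h
    ((covDeck ι h hp hζ ha hh (covGen ι h) : ↥(cov ι h)) : Ω) = ι ζ * h := by
  letI := covAlgebra ι h
  rw [covDeck_gen]
  rfl

/-- **The deck transformation generates the Galois group.** -/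
theorem exists_pow_eq_covDeck :
    letI := covAlgebra ι h
    ∀ g : ↥(cov ι h) ≃ₐ[K] ↥(cov ι h), ∃ j : ℕ, g = covDeck ι h hp hζ ha hh ^ j := by
  letI := covAlgebra ι h
  haveI := isSplittingField_cov ι h hp hζ ha
  haveI : NeZero p := ⟨hp.ne_zero⟩
  intro g
  set e := autEquivZmod (irreducible_cov ι h hp hζ ha hh) ↥(cov ι h) hζ with he
  refine ⟨(Multiplicative.toAdd (e g)).val, ?_⟩
  apply e.injective
  rw [map_pow]
  have h1 : e (covDeck ι h hp hζ ha hh) = Multiplicative.ofAdd (1 : ZMod p) := by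
    unfold covDeck
    exact e.apply_symm_apply _
  rw [h1, ← ofAdd_nsmul, nsmul_eq_mul, mul_one, ZMod.natCast_zmod_val]
  rfl

/-- Every ring homomorphism `cov ι h → Ω` which is the inclusion on `ι(K)` and maps `h` to
`ι(ζ) h` is the deck transformation. -/
theorem covDeck_eq_of_ringHom (f : ↥(cov ι h) →+* Ω) (h1 : ∀ x : K, f (covMap ι h x) = ι x)
    (h2 : f (covGen ι h) = ι ζ * h) (z : ↥(cov ι h)) :
    letI := covAlgebra ι h
    ((covDeck ι h hp hζ ha hh z : ↥(cov ι h)) : Ω) = f z := by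
  letI := covAlgebra ι h
  have key : ((cov ι h).subtype).comp
      ((covDeck ι h hp hζ ha hh : ↥(cov ι h) ≃ₐ[K] ↥(cov ι h)) : ↥(cov ι h) →+* ↥(cov ι h)) = f := by
    apply covHom_ext
    · intro x
      rw [h1 x]
      show ((covDeck ι h hp hζ ha hh (algebraMap K ↥(cov ι h) x) : ↥(cov ι h)) : Ω) = ι x
      rw [AlgEquiv.commutes]
      rfl
    · rw [h2]
      exact coe_covDeck_gen ι h hp hζ ha hh
  exact congrArg (fun φ : ↥(cov ι h) →+* Ω => φ z) key

end Kummer

end Fermat.Agent.Ribet.H712.Frame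

end
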