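import Fermat.Agent.Ribet.H704.WildSpec
import Fermat.Agent.Ribet.H712.FrameCover

/-!
# Row 38, WALL-p, CORE-OUT WILD: the frame from CONCRETE data (helper712)

`H704.CoreOut.WildFrame` (`WildSpec.lean`) has five abstract types and 25 instance fields.  This
file fixes the concrete choice and does ALL the instance plumbing once:

* `O₁ = RE A E₁`, `E₁`, `K₁ = FE E₁ N` (`N = M' * p`), for levels `E₁ ≤ E₂`;
* `L₁ = cov (sIota E₁ N) h`, `L₂ = cov (sIota E₂ N) h`: the subfields of `ℚ̄((t))` generated by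
  the `t`-expansions of `F_{N,E_i}` and `h` (`h ^ p = ` expansion of `f_t`, `h ∉ F_{N,E₁}`);
* `K₁ → K₂ = levelMap N hle` (coefficientwise), `O₁ → O₂ = reMap A hle`, `L₁ → L₂` the inclusion;
* `τ = covDeck` : the deck transformation `h ↦ ζ h` (`FrameCover.lean`).

**`nonempty_wildFrame`** : LEVEL + MODEL + UNIT + SPLIT + COVER + PER (all stated with explicit
maps, no instances; PER in `t`-expansion form) `⟹ Nonempty (WildFrame …)`.
-/

set_option autoImplicit false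
set_option synthInstance.maxHeartbeats 400000
set_option maxHeartbeats 1000000
set_option linter.unusedSectionVars false
set_option linter.style.haveILetI false

noncomputable section

namespace Fermat.Agent.Ribet.H712.Frame

open ModularCurve HahnSeries
open Fermat.Agent.S24 Fermat.Agent.A2 Fermat.Agent.Ribet.H704
open Fermat.Agent.Ribet.H704.CoreOut

section Maps

variable (A : ValuationSubring Kbar) (E : IntermediateField ℚ Kbar) (N : ℕ)

/-- The `t`-expansion over `ℚ̄` of an element of `F_{N,E}`. -/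
def sIota : ↥(Mod.FE E N) →+* LaurentSeries Kbar :=
  (coeffMap (algebraMap ↥E Kbar)).comp (algebraMap ↥(Mod.FE E N) (LaurentSeries ↥E))

theorem sIota_apply (z : ↥(Mod.FE E N)) :
    sIota E N z = coeffMap (algebraMap ↥E Kbar) (z : LaurentSeries ↥E) := rfl

theorem sIota_injective : Function.Injective (sIota E N) := (sIota E N).injective

variable {E} in
/-- The inclusion of the coefficient fields, as a ring homomorphism. -/
def incE {E' : IntermediateField ℚ Kbar} (hle : E ≤ E') : ↥E →+* ↥E' :=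
  (IntermediateField.inclusion hle).toRingHom

variable {E} in
/-- The level map `F_{N,E} → F_{N,E'}` (coefficientwise inclusion). -/
def levelMap {E' : IntermediateField ℚ Kbar} (hle : E ≤ E') : ↥(Mod.FE E N) →+* ↥(Mod.FE E' N) :=
  ((coeffMap (incE hle)).comp (algebraMap ↥(Mod.FE E N) (LaurentSeries ↥E))).codRestrict
    (Mod.FE E' N) (fun z =>
      Fermat.Agent.S18.H602.coeffMap_mem_laurentBaseChange _ (incE hle) z.2)

variable {E} in
theorem sIota_levelMap {E' : IntermediateField ℚ Kbar} (hle : E ≤ E') (z : ↥(Mod.FE E N)) :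
    sIota E' N (levelMap N hle z) = sIota E N z := by
  show coeffMap (algebraMap ↥E' Kbar) (coeffMap (incE hle) (z : LaurentSeries ↥E)) = _
  rw [coeffMap_coeffMap]
  rfl

variable {E} in
theorem levelMap_algebraMap {E' : IntermediateField ℚ Kbar} (hle : E ≤ E') (e : ↥E) :
    levelMap N hle (algebraMap ↥E ↥(Mod.FE E N) e) =
      algebraMap ↥E' ↥(Mod.FE E' N) (incE hle e) := by
  apply Subtype.ext
  show coeffMap (incE hle) (algebraMap ↥E (LaurentSeries ↥E) e) = _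
  rw [Fermat.Agent.S18.H602.coeffMap_algebraMap']
  rfl

variable {E} in
/-- `R_E → R_{E'}`. -/
def reMap {E' : IntermediateField ℚ Kbar} (hle : E ≤ E') : ↥(Mod.RE A E) →+* ↥(Mod.RE A E') where
  toFun r := ⟨incE hle (r : ↥E), r.2⟩
  map_one' := Subtype.ext (map_one (incE hle))
  map_mul' _ _ := Subtype.ext (map_mul (incE hle) _ _)
  map_zero' := Subtype.ext (map_zero (incE hle))
  map_add' _ _ := Subtype.ext (map_add (incE hle) _ _)

theorem algebraMap_RE_FE_injective :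
    Function.Injective (algebraMap ↥(Mod.RE A E) ↥(Mod.FE E N)) := by
  intro a b hab
  have h1 : algebraMap ↥E ↥(Mod.FE E N) (a : ↥E) = algebraMap ↥E ↥(Mod.FE E N) (b : ↥E) := hab
  exact Subtype.ext ((algebraMap ↥E ↥(Mod.FE E N)).injective h1)

end Maps

section Build

variable (p M' : ℕ) [NeZero M'] [NeZero p] (hp : p.Prime)
  (A : ValuationSubring Kbar) (E₁ E₂ : IntermediateField ℚ Kbar) (hle : E₁ ≤ E₂)
  (w₁ : Mod.RE A E₁) (w₂ : Mod.RE A E₂)

theorem nonempty_wildFrame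
    (c₂ : SSChart w₂ (Mod.chartAlg A E₂ (M' * p) (Mod.xE E₂ M' p)))
    (f₂ D₂ : Mod.FE E₂ (M' * p))
    -- LEVEL
    (hdvr₁ : IsDiscreteValuationRing (Mod.RE A E₁))
    (halg₁ : IsAlgClosed (IsLocalRing.ResidueField (Mod.RE A E₁)))
    (hp_mem : (p : Mod.RE A E₁) ∈ IsLocalRing.maximalIdeal (Mod.RE A E₁))
    (ζ : Mod.RE A E₁) (hζ : IsPrimitiveRoot ζ p)
    -- MODEL
    (ctx₁ : Alg.ChartCtx E₁ w₁ (Mod.xE E₁ M' p) (Mod.chartAlg A E₁ (M' * p) (Mod.xE E₁ M' p)))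
    (c₁ : SSChart w₁ (Mod.chartAlg A E₁ (M' * p) (Mod.xE E₁ M' p)))
    (map_mem : ∀ b ∈ Mod.chartAlg A E₁ (M' * p) (Mod.xE E₁ M' p),
      levelMap (M' * p) hle b ∈ Mod.chartAlg A E₂ (M' * p) (Mod.xE E₂ M' p))
    (comp₁ : ∀ (b : Mod.chartAlg A E₁ (M' * p) (Mod.xE E₁ M' p))
      (b' : Mod.chartAlg A E₂ (M' * p) (Mod.xE E₂ M' p)),
      (b' : Mod.FE E₂ (M' * p)) = levelMap (M' * p) hle (b : Mod.FE E₁ (M' * p)) →
        (b' ∈ c₂.p₁ ↔ b ∈ c₁.p₁))
    (comp₂ : ∀ (b : Mod.chartAlg A E₁ (M' * p) (Mod.xE E₁ M' p))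
      (b' : Mod.chartAlg A E₂ (M' * p) (Mod.xE E₂ M' p)),
      (b' : Mod.FE E₂ (M' * p)) = levelMap (M' * p) hle (b : Mod.FE E₁ (M' * p)) →
        (b' ∈ c₂.p₂ ↔ b ∈ c₁.p₂))
    (unif : ∃ (η : Mod.RE A E₂) (e : ℕ), IsUnit η ∧ 0 < e ∧ reMap A hle w₁ = η * w₂ ^ e)
    -- UNIT
    (Nn : ℕ) (D D' : Mod.chartAlg A E₁ (M' * p) (Mod.xE E₁ M' p))
    (hN : Nat.Coprime Nn p)
    (hDD : D * D' = algebraMap (Mod.RE A E₁) (Mod.chartAlg A E₁ (M' * p) (Mod.xE E₁ M' p)) w₁ ^ Nn)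
    (hD : D ∉ c₁.p₁) (hD' : D' ∉ c₁.p₂)
    (hD₂ : D₂ = levelMap (M' * p) hle (D : Mod.FE E₁ (M' * p)))
    -- SPLIT
    (ft : Mod.FE E₁ (M' * p)) (hft0 : ft ≠ 0) (hft_div : DivisibleDiv E₁ p ft)
    (hft_split₁ : I6.SplitAt (Mod.FE E₁ (M' * p)) c₁.p₁
      (algebraMap (Mod.RE A E₁) (Mod.chartAlg A E₁ (M' * p) (Mod.xE E₁ M' p)) w₁) p ft)
    (hft_split₂ : I6.SplitAt (Mod.FE E₁ (M' * p)) c₁.p₂
      (algebraMap (Mod.RE A E₁) (Mod.chartAlg A E₁ (M' * p) (Mod.xE E₁ M' p)) w₁) p ft)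
    -- COVER
    (h : LaurentSeries Kbar) (hh : h ^ p = sIota E₁ (M' * p) ft)
    (hhF : h ∉ Set.range (sIota E₁ (M' * p)))
    -- PER
    (f' G : ↥(cov (sIota E₁ (M' * p)) h)) (cc : Mod.RE A E₁) (hf' : f' ≠ 0) (hG : G ≠ 0)
    (hcc : IsUnit cc)
    (hper : ((covDeck (sIota E₁ (M' * p)) h hp
        (hζ.map_of_injective (algebraMap_RE_FE_injective A E₁ (M' * p))) hh hhF f' :
          ↥(cov (sIota E₁ (M' * p)) h)) : LaurentSeries Kbar) =
        (f' : LaurentSeries Kbar) *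
          sIota E₁ (M' * p) (algebraMap (Mod.RE A E₁) (Mod.FE E₁ (M' * p)) cc) *
          (G : LaurentSeries Kbar) ^ p)
    (hf'_div : ∀ V : ValuationSubring ↥(cov (sIota E₁ (M' * p)) h), IsDiscreteValuationRing V →
      (∀ e : E₁, covMap (sIota E₁ (M' * p)) h (algebraMap E₁ (Mod.FE E₁ (M' * p)) e) ∈ V) →
      ∃ g u : ↥(cov (sIota E₁ (M' * p)) h), g ≠ 0 ∧ u ∈ V ∧ u⁻¹ ∈ V ∧ f' = u * g ^ p)
    (lc : E₂) (b : ↥(cov (sIota E₂ (M' * p)) h)) (hlc : lc ≠ 0) (hb : b ≠ 0)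
    (hf₂ : sIota E₂ (M' * p) f₂ =
      sIota E₂ (M' * p) (algebraMap E₂ (Mod.FE E₂ (M' * p)) lc) * (f' : LaurentSeries Kbar) *
        (b : LaurentSeries Kbar) ^ p) :
    Nonempty (WildFrame p (Mod.RE A E₂) E₂ (Mod.FE E₂ (M' * p)) w₂
      (Mod.chartAlg A E₂ (M' * p) (Mod.xE E₂ M' p)) c₂ f₂ D₂) := by
  letI iO₁O₂ : Algebra ↥(Mod.RE A E₁) ↥(Mod.RE A E₂) := (reMap A hle).toAlgebra
  letI iK₁K₂ : Algebra ↥(Mod.FE E₁ (M' * p)) ↥(Mod.FE E₂ (M' * p)) :=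
    (levelMap (M' * p) hle).toAlgebra
  letI iO₁K₂ : Algebra ↥(Mod.RE A E₁) ↥(Mod.FE E₂ (M' * p)) :=
    ((algebraMap ↥(Mod.RE A E₂) ↥(Mod.FE E₂ (M' * p))).comp (reMap A hle)).toAlgebra
  letI iK₁L₁ : Algebra ↥(Mod.FE E₁ (M' * p)) ↥(cov (sIota E₁ (M' * p)) h) :=
    covAlgebra (sIota E₁ (M' * p)) h
  letI iE₁L₁ : Algebra ↥E₁ ↥(cov (sIota E₁ (M' * p)) h) :=
    ((covMap (sIota E₁ (M' * p)) h).comp (algebraMap ↥E₁ ↥(Mod.FE E₁ (M' * p)))).toAlgebra
  letI iK₂L₂ : Algebra ↥(Mod.FE E₂ (M' * p)) ↥(cov (sIota E₂ (M' * p)) h) :=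
    covAlgebra (sIota E₂ (M' * p)) h
  letI iL₁L₂ : Algebra ↥(cov (sIota E₁ (M' * p)) h) ↥(cov (sIota E₂ (M' * p)) h) :=
    (covIncl (sIota E₁ (M' * p)) h (sIota E₂ (M' * p)) (levelMap (M' * p) hle)
      (sIota_levelMap (M' * p) hle)).toAlgebra
  letI iK₁L₂ : Algebra ↥(Mod.FE E₁ (M' * p)) ↥(cov (sIota E₂ (M' * p)) h) :=
    ((covMap (sIota E₂ (M' * p)) h).comp (levelMap (M' * p) hle)).toAlgebra
  have hζK : IsPrimitiveRoot (algebraMap (Mod.RE A E₁) (Mod.FE E₁ (M' * p)) ζ) p :=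
    hζ.map_of_injective (algebraMap_RE_FE_injective A E₁ (M' * p))
  refine ⟨{
    O₁ := ↥(Mod.RE A E₁)
    E₁ := ↥E₁
    K₁ := ↥(Mod.FE E₁ (M' * p))
    L₁ := ↥(cov (sIota E₁ (M' * p)) h)
    L₂ := ↥(cov (sIota E₂ (M' * p)) h)
    commRingO₁ := inferInstance
    isDomainO₁ := inferInstance
    dvrO₁ := hdvr₁
    fieldE₁ := inferInstance
    charZeroE₁ := inferInstance
    algO₁E₁ := inferInstance
    fracO₁E₁ := inferInstance
    fieldK₁ := inferInstance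
    algE₁K₁ := inferInstance
    algO₁K₁ := inferInstance
    towerO₁E₁K₁ := inferInstance
    fieldL₁ := inferInstance
    algK₁L₁ := iK₁L₁
    algE₁L₁ := iE₁L₁
    towerE₁K₁L₁ := IsScalarTower.of_algebraMap_eq (fun _ => rfl)
    finK₁L₁ := finiteDimensional_cov (sIota E₁ (M' * p)) h hp hζK hh
    galK₁L₁ := isGalois_cov (sIota E₁ (M' * p)) h hp hζK hh hhF
    fieldL₂ := inferInstance
    algK₂L₂ := iK₂L₂
    algO₁O₂ := iO₁O₂
    algK₁K₂ := iK₁K₂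
    algL₁L₂ := iL₁L₂
    algK₁L₂ := iK₁L₂
    towerK₁K₂L₂ := IsScalarTower.of_algebraMap_eq (fun _ => rfl)
    towerK₁L₁L₂ := IsScalarTower.of_algebraMap_eq (fun x =>
      Subtype.ext (sIota_levelMap (M' * p) hle x))
    algO₁K₂ := iO₁K₂
    towerO₁O₂K₂ := IsScalarTower.of_algebraMap_eq (fun _ => rfl)
    towerO₁K₁K₂ := IsScalarTower.of_algebraMap_eq (fun r =>
      (levelMap_algebraMap (M' * p) hle (r : ↥E₁)).symm)
    algClosed₁ := halg₁
    w₁ := w₁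
    x₁ := Mod.xE E₁ M' p
    B₁ := Mod.chartAlg A E₁ (M' * p) (Mod.xE E₁ M' p)
    ctx₁ := ctx₁
    c₁ := c₁
    map_mem := map_mem
    comp₁ := comp₁
    comp₂ := comp₂
    unif := unif
    hp_mem := hp_mem
    ζ := ζ
    hζ := hζ
    N := Nn
    D := D
    D' := D'
    hN := hN
    hDD := hDD
    hD := hD
    hD' := hD'
    hD₂ := hD₂
    ft := ft
    hft0 := hft0
    hft_div := hft_div
    hft_split₁ := hft_split₁
    hft_split₂ := hft_split₂
    h := covGen (sIota E₁ (M' * p)) h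
    hh := covGen_pow (sIota E₁ (M' * p)) h hh
    hadj₁ := adjoin_covGen (sIota E₁ (M' * p)) h
    hadj₂ := adjoin_covGen (sIota E₂ (M' * p)) h
    τ := covDeck (sIota E₁ (M' * p)) h hp hζK hh hhF
    hτ := exists_pow_eq_covDeck (sIota E₁ (M' * p)) h hp hζK hh hhF
    f' := f'
    G := G
    c := cc
    hf' := hf'
    hG := hG
    hc := hcc
    hper := Subtype.ext hper
    hf'_div := hf'_div
    lc := lc
    b := b
    hlc := hlc
    hb := hb
    hf₂ := Subtype.ext hf₂ }⟩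

end Build

end Fermat.Agent.Ribet.H712.Frame

end
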