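import Fermat.Agent.Ribet.H712.WildFrameOdd

/-!
# WALL-p, UNIT: `UnitPairAt` from an abstract "mu-package" of ANY exponent `k`  (helper712)

`H463.UnitExp.exists_unitPair_cut_exp463` is the unit pair of the modular unit `Δ(t)/Δ(t^p)`
(exponent `12`).  For `p = 3` the exponent must be prime to `3` (UNIT-3 of helper461:
exponent `8`).  This file is the exponent-generic adapter:

`unitPairAt_of_package` : `D₀, D₀'` in the chart, `D₀ · D₀' = p ^ k`, `D₀` a unit of every `V∞`,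
`D₀'` a unit of every `V₀ = V∞ ∘ W`, `(p) = (w ^ e₀)` for every uniformiser `w` of `R_E`,
`k e₀` prime to `p`  ⟹  `UnitPairAt p M' A E Q` (for every `Q` with `Q D₀`).
-/

set_option autoImplicit false
set_option synthInstance.maxHeartbeats 400000
set_option maxHeartbeats 1600000
set_option linter.unusedSectionVars false
set_option linter.unusedVariables false
set_option linter.style.haveILetI false

noncomputable section

namespace Fermat.Agent.Ribet.H712.Frame

open ModularCurve HahnSeries AlgebraicCurve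
open Fermat.Agent.S24 Fermat.Agent.A2 Fermat.Agent.Ribet.H704
open Fermat.Agent.Ribet.H704.CoreOut

section Package

variable (p M' : ℕ) [NeZero M'] [NeZero p] [NeZero (p * M')]

/-- **Exponent-generic UNIT adapter.** -/
theorem unitPairAt_of_package (A : ValuationSubring Kbar) (E : IntermediateField ℚ Kbar)
    (Q : ↥(Mod.FE E (M' * p)) → Prop) (k e₀ : ℕ)
    (hram : ∀ w : Mod.RE A E, Irreducible w →
      Associated ((p : ℕ) : Mod.RE A E) (w ^ e₀))
    (hcop : Nat.Coprime (k * e₀) p)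
    (D₀ D₀' : Mod.FE E (M' * p))
    (hD : D₀ ∈ Mod.chartAlg A E (M' * p) (Mod.xE E M' p))
    (hD' : D₀' ∈ Mod.chartAlg A E (M' * p) (Mod.xE E M' p))
    (hmul : D₀ * D₀' = algebraMap E (Mod.FE E (M' * p)) ((p : E) ^ k))
    (hDu : ∀ V : ValuationSubring (Mod.FE E (M' * p)), Mod.IsVinf A E (M' * p) V → D₀⁻¹ ∈ V)
    (hD'u : ∀ (V : ValuationSubring (Mod.FE E (M' * p)))
      (W : Mod.FE E (M' * p) ≃ₐ[E] Mod.FE E (M' * p)),
      Mod.IsVinf A E (M' * p) V → Mod.IsFricke E (M' * p) W →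
        D₀'⁻¹ ∈ V.comap (W : Mod.FE E (M' * p) →+* Mod.FE E (M' * p)))
    (hQ : Q D₀) :
    UnitPairAt p M' A E Q := by
  intro w hS V W hV hW p₁ p₂ hc₁ hc₂
  haveI := hS.dvr
  have hp0 : (p : E) ≠ 0 := Nat.cast_ne_zero.mpr (NeZero.ne p)
  have hc0 : algebraMap E (Mod.FE E (M' * p)) ((p : E) ^ k) ≠ 0 := by
    rw [Ne, map_eq_zero]
    exact pow_ne_zero k hp0
  have hD0 : D₀ ≠ 0 := by
    rintro rfl
    rw [zero_mul] at hmul
    exact hc0 hmul.symm
  have hD'0 : D₀' ≠ 0 := by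
    rintro rfl
    rw [mul_zero] at hmul
    exact hc0 hmul.symm
  have hDV : ¬ Mod.InW A E (M' * p) V w D₀ :=
    Fermat.Agent.Ribet.H873.not_inW_of_inv_mem873
      (Fermat.Agent.Ribet.H873.cE_inv_not_mem873 hS.dvr hS.unif hV) hD0 (hDu V hV)
  have hD'V : ¬ Mod.InW A E (M' * p)
      (V.comap (W : Mod.FE E (M' * p) →+* Mod.FE E (M' * p))) w D₀' :=
    Fermat.Agent.Ribet.H873.not_inW_of_inv_mem873
      (Fermat.Agent.Ribet.H873.cE_inv_not_mem_comap873 hS.dvr hS.unif hV W) hD'0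
      (hD'u V W hV hW)
  obtain ⟨ε, hε⟩ := hram w hS.unif
  set B := Mod.chartAlg A E (M' * p) (Mod.xE E M' p) with hB
  refine ⟨k * e₀, ⟨D₀, hD⟩, algebraMap (Mod.RE A E) B ((ε : Mod.RE A E) ^ k) * ⟨D₀', hD'⟩,
    hcop, ?_, ?_, ?_, ?_⟩
  · apply Subtype.ext
    show D₀ * (algebraMap (Mod.RE A E) (Mod.FE E (M' * p)) ((ε : Mod.RE A E) ^ k) * D₀') =
      (algebraMap (Mod.RE A E) (Mod.FE E (M' * p)) w) ^ (k * e₀)
    have hpk : algebraMap E (Mod.FE E (M' * p)) ((p : E) ^ k) =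
        algebraMap (Mod.RE A E) (Mod.FE E (M' * p)) (((p : ℕ) : Mod.RE A E) ^ k) := by
      show _ = algebraMap E (Mod.FE E (M' * p)) (((((p : ℕ) : Mod.RE A E) ^ k : Mod.RE A E)) : E)
      congr 1
    rw [mul_left_comm, hmul, hpk, ← map_mul, ← map_pow]
    congr 1
    rw [pow_mul', ← hε]
    ring
  · exact fun h => hDV ((hc₁ ⟨D₀, hD⟩).mp h)
  · intro h
    apply hD'V
    have h0 := (hc₂ _).mp h
    have hεV : algebraMap (Mod.RE A E) (Mod.FE E (M' * p))
        (((ε⁻¹ : (Mod.RE A E)ˣ) : Mod.RE A E) ^ k) ∈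
        V.comap (W : Mod.FE E (M' * p) →+* Mod.FE E (M' * p)) := by
      rw [ValuationSubring.mem_comap]
      have h1 : (W : Mod.FE E (M' * p) →+* Mod.FE E (M' * p))
          (algebraMap (Mod.RE A E) (Mod.FE E (M' * p))
            (((ε⁻¹ : (Mod.RE A E)ˣ) : Mod.RE A E) ^ k)) =
          algebraMap E (Mod.FE E (M' * p))
            ((((ε⁻¹ : (Mod.RE A E)ˣ) : Mod.RE A E) ^ k : Mod.RE A E) : E) :=
        W.commutes _
      rw [h1]
      exact (Fermat.Agent.A2.Mod.H708.algebraMap_mem_iff_of_isVinf hV _).mpr (Subtype.mem _)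
    have h2 := (V.comap (W : Mod.FE E (M' * p) →+* Mod.FE E (M' * p))).mul_mem _ _ hεV h0
    have h3 : algebraMap (Mod.RE A E) (Mod.FE E (M' * p))
          (((ε⁻¹ : (Mod.RE A E)ˣ) : Mod.RE A E) ^ k) *
        (((algebraMap (Mod.RE A E) B ((ε : Mod.RE A E) ^ k) * ⟨D₀', hD'⟩ : B) :
            Mod.FE E (M' * p)) * (Mod.cE A E (M' * p) w)⁻¹) =
        D₀' * (Mod.cE A E (M' * p) w)⁻¹ := by
      have h4 : algebraMap (Mod.RE A E) (Mod.FE E (M' * p))
            (((ε⁻¹ : (Mod.RE A E)ˣ) : Mod.RE A E) ^ k) *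
          algebraMap (Mod.RE A E) (Mod.FE E (M' * p)) ((ε : Mod.RE A E) ^ k) = 1 := by
        rw [← map_mul, ← mul_pow, Units.inv_mul, one_pow, map_one]
      show algebraMap (Mod.RE A E) (Mod.FE E (M' * p))
          (((ε⁻¹ : (Mod.RE A E)ˣ) : Mod.RE A E) ^ k) *
        ((algebraMap (Mod.RE A E) (Mod.FE E (M' * p)) ((ε : Mod.RE A E) ^ k) * D₀') *
          (Mod.cE A E (M' * p) w)⁻¹) = _
      rw [← mul_assoc, ← mul_assoc, h4, one_mul]
    rw [h3] at h2
    exact h2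
  · exact hQ

end Package

end Fermat.Agent.Ribet.H712.Frame

end
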