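import Fermat.Agent.Ribet.H712.WildUOdd
import Fermat.Agent.S59.Unit3.H461.Unit3Pkg

/-!
# WALL-p at `p = 3`, CORE-OUT: WILD with the UNIT-3 unit (exponent `8`)  (helper712)

Instance of `H712.Frame.wildU_odd` at `p = 3`, `2 ∣ M'`, `3 ∤ M'`, with the unit pair
`S59.Unit3.H461.mu3_package` (`v = (η(τ)η(2τ)/(η(3τ)η(6τ)))⁸`, `D · D' = 3⁸`, `8 · 2` prime to
`3`).

* `IsUnit3 M' D`  : `D ∈ FF (3 M')` is the inverse of `v` as a `t`-series over `ℚ̄`
                    (`D · v3L = 1`);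
* `unitData3`     : `UnitData 3 M' A (IsUnit3 M')`;
* `wild3`         : under the hypotheses of WILD at `(3, M', A)`:
  `∃ f D G n a b, IsKummerGen f x ∧ IsUnit3 M' D ∧ D ≠ 0 ∧ ¬ 3 ∣ n ∧ G * D ^ b = f ^ n * D ^ a ∧
     NodeGen 3 M' A G`.
-/

set_option autoImplicit false
set_option synthInstance.maxHeartbeats 400000
set_option maxHeartbeats 2000000
set_option linter.unusedSectionVars false
set_option linter.unusedVariables false
set_option linter.style.haveILetI false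

noncomputable section

namespace Fermat.Agent.Ribet.H712.Frame

open ModularCurve HahnSeries AlgebraicCurve
open Fermat.Agent.S24 Fermat.Agent.A2 Fermat.Agent.Ribet.H704
open Fermat.Agent.Ribet.H704.CoreOut
open Fermat.Agent.Ribet.Spec Fermat.Agent.Ribet.H944.Wall Fermat.Agent.Ribet.H884

section Three

variable (M' : ℕ) [NeZero M'] [NeZero (3 * M')]

/-- `D` is the inverse of the UNIT-3 unit `v` (as a `t`-series over `ℚ̄`). -/
def IsUnit3 (D : FF (3 * M')) : Prop :=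
  (D : LaurentSeries Kbar) *
    coeffMap (Int.castRingHom Kbar) Fermat.Agent.S59.Unit3.H461.v3L = 1

/-- **The unit data at `p = 3`** (`2 ∣ M'`). -/
theorem unitData3 (h2 : 2 ∣ M') (A : ValuationSubring Kbar) (hA : A.LiesOverPrime 3) :
    UnitData 3 M' A (IsUnit3 M') := by
  refine unitData_of_package 3 M' Nat.prime_three A hA (IsUnit3 M') 8 (by decide) ?_
  intro E
  obtain ⟨D, D', hDe, hD'e, hmul, hD, hD', hVu, hV0u, -⟩ :=
    Fermat.Agent.S59.Unit3.H461.mu3_package A E M' h2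
  refine ⟨D', D, hD', hD, ?_, fun V hV => (hVu V hV).2,
    fun V W hV hW => (hV0u V W hV hW).2, ?_⟩
  · rw [mul_comm D' D, hmul, Nat.cast_ofNat]
  · intro Dbar h
    show (Dbar : LaurentSeries Kbar) *
      coeffMap (Int.castRingHom Kbar) Fermat.Agent.S59.Unit3.H461.v3L = 1
    rw [hD'e, Fermat.Agent.S36.H438.coeffMap_castE] at h
    exact h

/-- **WILD at `p = 3`** (`2 ∣ M'`, `3 ∤ M'`), pointwise at `(M', A)`. -/
theorem wild3 (h2 : 2 ∣ M') (hpM : ¬ 3 ∣ M')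
    (A : ValuationSubring Kbar) (hA : A.LiesOverPrime 3)
    (S : Finset ℕ) (a : ℕ → ℤ) (hNE : NonEisAway 3 a) (x t : JZero (3 * M'))
    (hx : IsNewTors 3 M' x) (hex : EigenAt (3 * M') S a x)
    (ht : IsNewTors 3 M' t) (het : EigenAt (3 * M') S a t)
    (hχ : ∀ σ ∈ A.inertiaSubgroupIn ℚ, ∀ c : ℕ, CycloAt 3 σ c → σ • t = c • t)
    (hsh : ∀ σ ∈ A.inertiaSubgroupIn ℚ, ∃ n : ℕ, σ • x = x + n • t)
    (hpeu : ∀ σ : GQ, PeuFixes A 3 σ → σ • x = x)
    (σ₀ : GQ) (hσ₀ : σ₀ ∈ A.inertiaSubgroupIn ℚ) (hσ₀1 : CycloAt 3 σ₀ 1) (hσ₀x : σ₀ • x ≠ x) :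
    ∃ (f D G : FF (3 * M')) (n a b : ℕ), IsKummerGen (3 * M') 3 f x ∧ IsUnit3 M' D ∧ D ≠ 0 ∧
      ¬ 3 ∣ n ∧ G * D ^ b = f ^ n * D ^ a ∧ NodeGen 3 M' A G :=
  wildU_odd 3 M' Nat.prime_three (by decide) (fun _ => h2) hpM A hA (IsUnit3 M')
    (unitData3 M' h2 A hA) S a hNE x t hx hex ht het hχ hsh hpeu σ₀ hσ₀ hσ₀1 hσ₀x

end Three

end Fermat.Agent.Ribet.H712.Frame

end
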