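import Fermat.Agent.Ribet.H712.FrameTypes
import Fermat.Agent.Ribet.H704.KDSpec
import Fermat.Agent.Ribet.H819.PerCov
import Fermat.Agent.Ribet.H819.PerLevel
import Fermat.Agent.Ribet.H279.TwoLevel
import Fermat.Agent.Ribet.H339.DeepSplit
import Fermat.Agent.Ribet.H769.HorDescFE
import Fermat.Agent.Ribet.H463.UnitExp
import Fermat.Agent.S17.H126.StabilizerOpen

/-!
# Row 38, WALL-p, CORE-OUT WILD: `WildFrameStatement` from KD  (helper712)

**`wildFrame_of : H704.CoreOut.KDStatement → H704.CoreOut.WildFrameStatement`** (VERBATIM).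

Everything except KD is plugged in from main:
* LEVEL       : `H944.Tame.exists_wildLevel` (+ `S17.H126.stabilizer_open`);
* MODEL       : `H279.TwoLevel.twoLevelModel`;
* UNIT        : `H463.UnitExp.exists_unitPair_cut_exp463`, `exists_isModUnit463`;
* DEEP-SPLIT  : `H339.deepSplit339`;
* COVER + PER : `H819.PerCtx.ofKummer`, `H819.PerCtx.per_cov`;
* HOR-DESC    : `H769.horDesc_frame769`, `H769.adjoin_const_laurentBaseChange769`;
* PLUMBING    : `H712.Frame.nonempty_wildFrame`.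
-/

set_option autoImplicit false
set_option synthInstance.maxHeartbeats 400000
set_option maxHeartbeats 2000000
set_option linter.unusedSectionVars false
set_option linter.unusedVariables false
set_option linter.style.haveILetI false

noncomputable section

namespace Fermat.Agent.Ribet.H712.Frame

open ModularCurve HahnSeries AlgebraicCurve
open Fermat.Agent.S24 Fermat.Agent.A2 Fermat.Agent.Ribet.H704
open Fermat.Agent.Ribet.H704.CoreOut
open Fermat.Agent.Ribet.Spec Fermat.Agent.Ribet.H944.Wall Fermat.Agent.Ribet.H884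

/-! ## Small adapters -/

section Adapters

variable (A : ValuationSubring Kbar) {E₁ E₂ : IntermediateField ℚ Kbar} (hle : E₁ ≤ E₂) (N : ℕ)

theorem levelMap_eq_279 :
    Fermat.Agent.Ribet.H279.TwoLevel.levelMap hle N = levelMap N hle :=
  RingHom.ext fun _ => Subtype.ext rfl

theorem reMap_eq_279 :
    Fermat.Agent.Ribet.H279.TwoLevel.reMap A hle = reMap A hle :=
  RingHom.ext fun _ => Subtype.ext rfl

/-- The `t`-expansion of a constant. -/
theorem sIota_algebraMap (E : IntermediateField ℚ Kbar) (e : ↥E) :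
    sIota E N (algebraMap ↥E ↥(Mod.FE E N) e) = HahnSeries.C ((e : ↥E) : Kbar) := by
  rw [sIota_apply, IntermediateField.coe_algebraMap_apply, algebraMap_laurentSeries_eq_single,
    coeffMap_single, HahnSeries.C_apply]
  rfl

theorem sIota_algebraMap_RE (E : IntermediateField ℚ Kbar) (r : ↥(Mod.RE A E)) :
    sIota E N (algebraMap ↥(Mod.RE A E) ↥(Mod.FE E N) r) =
      HahnSeries.C (((r : ↥E) : ↥E) : Kbar) :=
  sIota_algebraMap N E (r : ↥E)

end Adapters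

/-! ## The assembly -/

section Core

open Fermat.Agent.Ribet.H944.Tame

variable (p M' : ℕ) [NeZero M'] [NeZero p] [NeZero (p * M')]

/-- The exponent of the unit pair at the tame level. -/
theorem exp_eq_of_associated {R : Type*} [CommRing R] [IsDomain R] [IsDiscreteValuationRing R]
    {w c : R} (hw : Irreducible w) {e e' : ℕ} (h : Associated c (w ^ e))
    (h' : Associated c (w ^ e')) : e = e' := by
  obtain ⟨v, hv⟩ := h.symm.trans h'
  refine IsDiscreteValuationRing.unit_mul_pow_congr_pow hw hw v 1 e e' ?_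
  rw [Units.val_one, one_mul, mul_comm, hv]

/-- **The frame from the KD data** (levels `E₁ = tameLevel A ζ`, `E₂ = wildLevel A ζ u`). -/
theorem wildFrame_core (hp : p.Prime) (hp5 : 5 ≤ p) (hpM : ¬ p ∣ M')
    (A : ValuationSubring Kbar) (hA : A.LiesOverPrime p)
    (S : Finset ℕ) (a : ℕ → ℤ) (hNE : NonEisAway p a) (x t : JZero (p * M'))
    (ht : IsNewTors p M' t) (het : EigenAt (p * M') S a t)
    (hχ : ∀ σ ∈ A.inertiaSubgroupIn ℚ, ∀ c : ℕ, CycloAt p σ c → σ • t = c • t)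
    (ζ : Kbar) (hζ : IsPrimitiveRoot ζ p) (σ₁ : GQ) (u : Kbar)
    (hσ₁I : σ₁ ∈ A.inertiaSubgroupIn ℚ) (hσ₁1 : CycloAt p σ₁ 1)
    (hσ₁u : σ₁ u = ζ * u) (huA : u ∈ A) (huA' : u⁻¹ ∈ A) (hu0 : u ≠ 0)
    (hup : u ^ p ∈ tameLevel A ζ)
    (hG₂ : GoodField A (wildLevel A ζ u))
    (ft : Mod.FE (tameLevel A ζ) (M' * p))
    (f₂ G₀ : Mod.FE (wildLevel A ζ u) (M' * p)) (Ft f : FF (p * M')) (κ : Kbar)
    (hlc : (ft : LaurentSeries (tameLevel A ζ)).leadingCoeff = 1)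
    (hord : (p : ℤ) ∣ (ft : LaurentSeries (tameLevel A ζ)).order)
    (hnp : ∀ z : Mod.FE (tameLevel A ζ) (M' * p), z ^ p ≠ ft)
    (hKt : IsKummerGen (p * M') p Ft t)
    (hFt : (Ft : LaurentSeries Kbar) = coeffMap (algebraMap (tameLevel A ζ) Kbar)
      (ft : LaurentSeries (tameLevel A ζ)))
    (hKx : IsKummerGen (p * M') p f x)
    (hf : (f : LaurentSeries Kbar) = coeffMap (algebraMap (wildLevel A ζ u) Kbar)
      (f₂ : LaurentSeries (wildLevel A ζ u)))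
    (hf₂0 : f₂ ≠ 0) (hdiv₂ : DivisibleDiv (wildLevel A ζ u) p f₂)
    (hκ : κ ∈ wildLevel A ζ u)
    (hσ : coeffMap ((σ₁ : Kbar ≃ₐ[ℚ] Kbar) : Kbar →+* Kbar)
          (coeffMap (algebraMap (wildLevel A ζ u) Kbar)
            (f₂ : LaurentSeries (wildLevel A ζ u))) =
        coeffMap (algebraMap (wildLevel A ζ u) Kbar)
            (f₂ : LaurentSeries (wildLevel A ζ u)) *
          HahnSeries.C κ *
          coeffMap (algebraMap (tameLevel A ζ) Kbar)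
            (ft : LaurentSeries (tameLevel A ζ)) *
          (coeffMap (algebraMap (wildLevel A ζ u) Kbar)
            (G₀ : LaurentSeries (wildLevel A ζ u))) ^ p) :
    ∃ (E₂ : IntermediateField ℚ Kbar) (w₂ : Mod.RE A E₂)
      (c₂ : SSChart w₂ (Mod.chartAlg A E₂ (M' * p) (Mod.xE E₂ M' p)))
      (f₂ D₂ : Mod.FE E₂ (M' * p)) (f D : FF (p * M')),
      Mod.Setting A E₂ M' p w₂ ∧ GoodField A E₂ ∧
      Alg.ChartCtx E₂ w₂ (Mod.xE E₂ M' p) (Mod.chartAlg A E₂ (M' * p) (Mod.xE E₂ M' p)) ∧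
      IsKummerGen (p * M') p f x ∧
      (f : LaurentSeries Kbar) = coeffMap (algebraMap E₂ Kbar) (f₂ : LaurentSeries E₂) ∧
      f₂ ≠ 0 ∧ DivisibleDiv E₂ p f₂ ∧
      IsModUnit p M' D ∧ D ≠ 0 ∧
      (D : LaurentSeries Kbar) * coeffMap (algebraMap E₂ Kbar) (D₂ : LaurentSeries E₂) = 1 ∧
      Nonempty (WildFrame p (Mod.RE A E₂) E₂ (Mod.FE E₂ (M' * p)) w₂
        (Mod.chartAlg A E₂ (M' * p) (Mod.xE E₂ M' p)) c₂ f₂ D₂) := by
  classical
  have hN : M' * p ≠ 0 := mul_ne_zero (NeZero.ne M') hp.ne_zero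
  haveI : NeZero (M' * p) := ⟨hN⟩
  have hle : tameLevel A ζ ≤ wildLevel A ζ u := tameLevel_le_wildLevel A ζ u
  have hG₁ : GoodField A (tameLevel A ζ) := goodField_tameLevel A hp hA ζ
  have hdvr₁ : IsDiscreteValuationRing (Mod.RE A (tameLevel A ζ)) := hG₁.dvr
  have hdvr₂ : IsDiscreteValuationRing (Mod.RE A (wildLevel A ζ u)) := hG₂.dvr
  obtain ⟨w₁, hw₁⟩ := IsDiscreteValuationRing.exists_irreducible (Mod.RE A (tameLevel A ζ))
  obtain ⟨w₂, hw₂⟩ := IsDiscreteValuationRing.exists_irreducible (Mod.RE A (wildLevel A ζ u))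
  have hS₁ : Mod.Setting A (tameLevel A ζ) M' p w₁ :=
    ⟨hp, hpM, NeZero.ne M', hA, hdvr₁, hw₁⟩
  have hS₂ : Mod.Setting A (wildLevel A ζ u) M' p w₂ :=
    ⟨hp, hpM, NeZero.ne M', hA, hdvr₂, hw₂⟩
  -- MODEL
  obtain ⟨c₁, c₂, ctx₁, ctx₂, hcut₁, -, hmap, hcomp₁, hcomp₂, hunif⟩ :=
    Fermat.Agent.Ribet.H279.TwoLevel.twoLevelModel A hle M' p hS₁ hS₂
      (fun h => absurd h (by omega)) (fun h => absurd h (by omega))
  rw [levelMap_eq_279] at hmap hcomp₁ hcomp₂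
  rw [reMap_eq_279] at hunif
  obtain ⟨V₁, hV₁⟩ := Mod.H553.vinfExists A (tameLevel A ζ) (M' * p) hN hdvr₁
  have hW₁ : Mod.IsFricke (tameLevel A ζ) (M' * p) (Mod.H553.wE (tameLevel A ζ) (M' * p)) :=
    Mod.H553.isFricke_wE (tameLevel A ζ) (M' * p)
  obtain ⟨hc₁₁, hc₁₂⟩ := hcut₁ V₁ (Mod.H553.wE (tameLevel A ζ) (M' * p)) hV₁ hW₁
  -- UNIT
  obtain ⟨e, D, D', he, hass, hmul, hD, hD', hDe⟩ :=
    Fermat.Agent.Ribet.H463.UnitExp.exists_unitPair_cut_exp463 hS₁ hV₁ hW₁ c₁.p₁ c₁.p₂ hc₁₁ hc₁₂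
  have hee : e = p - 1 :=
    exp_eq_of_associated hw₁ hass (associated_natCast_pow hp hA hζ w₁ hw₁)
  have hN12 : Nat.Coprime (12 * e) p := by
    rw [hee]
    exact coprime_unitExp hp hp5
  -- DEEP-SPLIT
  obtain ⟨hftdiv, hsp₁, hsp₂⟩ :=
    Fermat.Agent.Ribet.H339.deepSplit339 p M' hp (by omega) hpM A hA S a hNE t ht het hχ
      (tameLevel A ζ) hG₁ w₁ hS₁ V₁ hV₁ (Mod.H553.wE (tameLevel A ζ) (M' * p)) hW₁
      (Mod.xE (tameLevel A ζ) M' p) (Or.inl rfl) c₁.p₁ c₁.p₂ hc₁₁ hc₁₂ Ft hKt ft hFt 1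
      (by rw [hlc, one_pow])
  have hft0 : ft ≠ 0 := by
    intro h0
    have h1 : (ft : LaurentSeries (tameLevel A ζ)) = 0 := by rw [h0]; rfl
    rw [h1, HahnSeries.leadingCoeff_zero] at hlc
    exact zero_ne_one hlc
  -- the root of unity `ζ⁻¹ = ζ ^ (p - 1)`
  have hcop : Nat.Coprime (p - 1) p := by
    rw [Nat.coprime_comm, Nat.Prime.coprime_iff_not_dvd hp]
    intro h
    have := Nat.le_of_dvd (by omega) h
    omega
  have hζ' : IsPrimitiveRoot (ζ ^ (p - 1)) p := hζ.pow_of_coprime (p - 1) hcop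
  have hζmul : ζ * ζ ^ (p - 1) = 1 := by
    rw [← pow_succ', Nat.sub_add_cancel hp.one_le, hζ.pow_eq_one]
  have hζinv : (ζ ^ (p - 1))⁻¹ = ζ := inv_eq_of_mul_eq_one_left hζmul
  have hζE : ζ ^ (p - 1) ∈ tameLevel A ζ := pow_mem (zeta_mem_tameLevel A ζ) _
  have hζA : ζ ^ (p - 1) ∈ A := pow_mem (mem_of_pow_eq_one A hp.ne_zero hζ.pow_eq_one) _
  have hσE : ∀ c ∈ tameLevel A ζ, (σ₁ : Kbar ≃ₐ[ℚ] Kbar).toRingEquiv c = c := fun c hc =>
    inK1_of_mem_tameLevel A hζ.pow_eq_one hc σ₁ hσ₁I hσ₁1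
  have hσu' : (σ₁ : Kbar ≃ₐ[ℚ] Kbar).toRingEquiv u = (ζ ^ (p - 1))⁻¹ * u := by
    rw [hζinv]
    exact hσ₁u
  -- COVER
  let c : Fermat.Agent.Ribet.H819.PerCtx Kbar :=
    Fermat.Agent.Ribet.H819.PerCtx.ofKummer (modularFunctionFieldFull (M' * p)) p hp
      (tameLevel A ζ) (ζ ^ (p - 1)) hζ' hζE (σ₁ : Kbar ≃ₐ[ℚ] Kbar).toRingEquiv hσE u hσu' hu0 hup
      ft hlc hord hnp
  have hhp : c.h ^ p = sIota (tameLevel A ζ) (M' * p) ft :=
    Fermat.Agent.Ribet.H819.PerCtx.ofKummer_h_pow (modularFunctionFieldFull (M' * p)) p hp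
      (tameLevel A ζ) (ζ ^ (p - 1)) hζ' hζE (σ₁ : Kbar ≃ₐ[ℚ] Kbar).toRingEquiv hσE u hσu' hu0 hup
      ft hlc hord hnp
  have hhF : c.h ∉ Set.range (sIota (tameLevel A ζ) (M' * p)) := by
    intro hmem
    apply c.hhF
    obtain ⟨z, hz⟩ := hmem
    exact (Fermat.Agent.Ribet.H819.mem_imBC_iff (modularFunctionFieldFull (M' * p))
      (tameLevel A ζ) _).mpr ⟨z, hz⟩
  -- constants
  let ζR : Mod.RE A (tameLevel A ζ) := ⟨⟨ζ ^ (p - 1), hζE⟩, hζA⟩
  have hζR : IsPrimitiveRoot ζR p := by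
    let φ : Mod.RE A (tameLevel A ζ) →+* Kbar :=
      (algebraMap (tameLevel A ζ) Kbar).comp (Mod.RE A (tameLevel A ζ)).subtype
    have hφ : Function.Injective φ := fun x y h => coe_injective A _ h
    have h1 : IsPrimitiveRoot (φ ζR) p := hζ'
    exact IsPrimitiveRoot.of_map_of_injective h1 hφ
  let cc : Mod.RE A (tameLevel A ζ) := ⟨⟨u ^ p, hup⟩, pow_mem huA p⟩
  have hcc : IsUnit cc := by
    have hinvA : (u ^ p)⁻¹ ∈ A := by
      rw [← inv_pow]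
      exact pow_mem huA' p
    refine isUnit_iff_exists_inv.mpr ⟨⟨⟨(u ^ p)⁻¹, inv_mem hup⟩, hinvA⟩, ?_⟩
    apply Subtype.ext
    apply Subtype.ext
    show u ^ p * (u ^ p)⁻¹ = 1
    exact mul_inv_cancel₀ (pow_ne_zero p hu0)
  let lc : ↥(wildLevel A ζ u) := (f₂ : LaurentSeries (wildLevel A ζ u)).leadingCoeff
  have hlc0 : lc ≠ 0 :=
    HahnSeries.leadingCoeff_ne_zero.mpr (fun h => hf₂0 (Subtype.ext h))
  have hζc : sIota (tameLevel A ζ) (M' * p)
      (algebraMap (Mod.RE A (tameLevel A ζ)) (Mod.FE (tameLevel A ζ) (M' * p)) ζR) =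
      HahnSeries.C c.ζ := sIota_algebraMap_RE A (M' * p) (tameLevel A ζ) ζR
  have ha : sIota (tameLevel A ζ) (M' * p)
      (algebraMap (Mod.RE A (tameLevel A ζ)) (Mod.FE (tameLevel A ζ) (M' * p)) cc) =
      HahnSeries.C (c.u ^ c.p) := sIota_algebraMap_RE A (M' * p) (tameLevel A ζ) cc
  have hℓ : sIota (wildLevel A ζ u) (M' * p)
      (algebraMap ↥(wildLevel A ζ u) (Mod.FE (wildLevel A ζ u) (M' * p)) lc) =
      HahnSeries.C (sIota (wildLevel A ζ u) (M' * p) f₂).leadingCoeff := by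
    rw [sIota_algebraMap, sIota_apply,
      Fermat.Agent.Ribet.H819.leadingCoeff_coeffMap_of_injective]
    rfl
  -- PER
  letI iK : Algebra ↥(Mod.FE (tameLevel A ζ) (M' * p)) ↥(Mod.FE (wildLevel A ζ u) (M' * p)) :=
    (levelMap (M' * p) hle).toAlgebra
  obtain ⟨f', G, b, hf', hG, hb, hper, hf2⟩ :=
    c.per_cov (modularFunctionFieldFull (M' * p)) (E₁ := tameLevel A ζ)
      (E₂ := wildLevel A ζ u) rfl (Fermat.Agent.Ribet.H819.wildLevel_toSubfield A ζ u) rfl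
      (hζR.map_of_injective (algebraMap_RE_FE_injective A (tameLevel A ζ) (M' * p))) hζc
      ft hhp hhF
      (algebraMap (Mod.RE A (tameLevel A ζ)) (Mod.FE (tameLevel A ζ) (M' * p)) cc) ha
      f₂ G₀ (algebraMap ↥(wildLevel A ζ u) (Mod.FE (wildLevel A ζ u) (M' * p)) lc) hf₂0 hℓ
      κ hκ hσ
  -- HOR-DESC
  have hf'div : ∀ V : ValuationSubring ↥(cov (sIota (tameLevel A ζ) (M' * p)) c.h),
      IsDiscreteValuationRing V →
      (∀ e : ↥(tameLevel A ζ), covMap (sIota (tameLevel A ζ) (M' * p)) c.h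
        (algebraMap ↥(tameLevel A ζ) (Mod.FE (tameLevel A ζ) (M' * p)) e) ∈ V) →
      ∃ g v : ↥(cov (sIota (tameLevel A ζ) (M' * p)) c.h), g ≠ 0 ∧ v ∈ V ∧ v⁻¹ ∈ V ∧
        f' = v * g ^ p := by
    letI iK₁L₁ : Algebra ↥(Mod.FE (tameLevel A ζ) (M' * p))
        ↥(cov (sIota (tameLevel A ζ) (M' * p)) c.h) :=
      covAlgebra (sIota (tameLevel A ζ) (M' * p)) c.h
    letI iE₁L₁ : Algebra ↥(tameLevel A ζ) ↥(cov (sIota (tameLevel A ζ) (M' * p)) c.h) :=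
      ((covMap (sIota (tameLevel A ζ) (M' * p)) c.h).comp
        (algebraMap ↥(tameLevel A ζ) ↥(Mod.FE (tameLevel A ζ) (M' * p)))).toAlgebra
    letI iK₂L₂ : Algebra ↥(Mod.FE (wildLevel A ζ u) (M' * p))
        ↥(cov (sIota (wildLevel A ζ u) (M' * p)) c.h) :=
      covAlgebra (sIota (wildLevel A ζ u) (M' * p)) c.h
    letI iL₁L₂ : Algebra ↥(cov (sIota (tameLevel A ζ) (M' * p)) c.h)
        ↥(cov (sIota (wildLevel A ζ u) (M' * p)) c.h) :=
      (covIncl (sIota (tameLevel A ζ) (M' * p)) c.h (sIota (wildLevel A ζ u) (M' * p))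
        (levelMap (M' * p) hle) (sIota_levelMap (M' * p) hle)).toAlgebra
    letI iK₁L₂ : Algebra ↥(Mod.FE (tameLevel A ζ) (M' * p))
        ↥(cov (sIota (wildLevel A ζ u) (M' * p)) c.h) :=
      ((covMap (sIota (wildLevel A ζ u) (M' * p)) c.h).comp (levelMap (M' * p) hle)).toAlgebra
    haveI t1 : IsScalarTower ↥(Mod.FE (tameLevel A ζ) (M' * p))
        ↥(Mod.FE (wildLevel A ζ u) (M' * p)) ↥(cov (sIota (wildLevel A ζ u) (M' * p)) c.h) :=
      IsScalarTower.of_algebraMap_eq (fun _ => rfl)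
    haveI t2 : IsScalarTower ↥(Mod.FE (tameLevel A ζ) (M' * p))
        ↥(cov (sIota (tameLevel A ζ) (M' * p)) c.h)
        ↥(cov (sIota (wildLevel A ζ u) (M' * p)) c.h) :=
      IsScalarTower.of_algebraMap_eq (fun z =>
        Subtype.ext (sIota_levelMap (M' * p) hle z))
    haveI : Algebra.IsAlgebraic ℚ Kbar := AlgebraicClosure.isAlgebraic ℚ
    have halgE₂ : Algebra.IsAlgebraic ℚ ↥(wildLevel A ζ u) :=
      Fermat.Agent.Ribet.H769.isAlgebraic_rat_intermediateField769 (wildLevel A ζ u)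
    have hK₂ : IntermediateField.adjoin ↥(Mod.FE (tameLevel A ζ) (M' * p))
        (Set.range (algebraMap ↥(wildLevel A ζ u) ↥(Mod.FE (wildLevel A ζ u) (M' * p)))) = ⊤ :=
      Fermat.Agent.Ribet.H769.adjoin_const_laurentBaseChange769
        (modularFunctionFieldFull (M' * p)) (incE hle) (fun _ => rfl)
    have hfr := Fermat.Agent.Ribet.H769.horDesc_frame769
      (E₁ := ↥(tameLevel A ζ)) (K₁ := ↥(Mod.FE (tameLevel A ζ) (M' * p)))
      (L₁ := ↥(cov (sIota (tameLevel A ζ) (M' * p)) c.h))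
      (E₂ := ↥(wildLevel A ζ u)) (K₂ := ↥(Mod.FE (wildLevel A ζ u) (M' * p)))
      (L₂ := ↥(cov (sIota (wildLevel A ζ u) (M' * p)) c.h))
      halgE₂ p hK₂ (covGen (sIota (tameLevel A ζ) (M' * p)) c.h)
      (adjoin_covGen (sIota (wildLevel A ζ u) (M' * p)) c.h)
      (f₂ := f₂) hdiv₂ (f' := f') (lc := lc) (b := b) hlc0 hb (Subtype.ext hf2)
    exact hfr
  -- the modular unit
  obtain ⟨Dbar, hDm, hDbar0⟩ := Fermat.Agent.Ribet.H463.UnitExp.exists_isModUnit463 p M'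
  have hp_mem : (p : Mod.RE A (tameLevel A ζ)) ∈
      IsLocalRing.maximalIdeal (Mod.RE A (tameLevel A ζ)) := by
    rw [IsLocalRing.mem_maximalIdeal, mem_nonunits_iff]
    exact Fermat.Agent.Ribet.H873.not_isUnit_natCast873 hA
  refine ⟨wildLevel A ζ u, w₂, c₂, f₂,
    levelMap (M' * p) hle (D : Mod.FE (tameLevel A ζ) (M' * p)), f, Dbar, hS₂, hG₂, ctx₂,
    hKx, hf, hf₂0, hdiv₂, hDm, hDbar0, ?_, ?_⟩
  · refine Fermat.Agent.Ribet.H463.UnitExp.isModUnit_mul_coeffMap463 p M' (wildLevel A ζ u) hDm ?_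
    show coeffMap (incE hle) ((D : Mod.FE (tameLevel A ζ) (M' * p)) :
      LaurentSeries (tameLevel A ζ)) = _
    rw [hDe]
    exact Fermat.Agent.Ribet.H463.UnitExp.coeffMap_castE_castE463 (tameLevel A ζ)
      (wildLevel A ζ u) (incE hle) _
  · exact nonempty_wildFrame p M' hp A (tameLevel A ζ) (wildLevel A ζ u) hle w₁ w₂ c₂ f₂
      (levelMap (M' * p) hle (D : Mod.FE (tameLevel A ζ) (M' * p))) hdvr₁ hG₁.algClosed hp_mem
      ζR hζR ctx₁ c₁ hmap hcomp₁ hcomp₂ hunif (12 * e) D D' hN12 hmul hD hD' rfl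
      ft hft0 hftdiv hsp₁ hsp₂ c.h hhp hhF f' G cc hf' hG hcc hper hf'div lc b hlc0 hb hf2

/-- **WILD-FRAME from KD** (`H704.CoreOut.WildFrameStatement`, verbatim). -/
theorem wildFrame_of (hKD : KDStatement) : WildFrameStatement := by
  intro p M' _ _ _ hp hp5 hpM A hA S a hNE x t hx hex ht het hχ hsh hpeu σ₀ hσ₀ hσ₀1 hσ₀x
  haveI : NeZero ((p : ℕ) : Kbar) := ⟨Nat.cast_ne_zero.mpr hp.ne_zero⟩
  obtain ⟨ζ, hζ⟩ := HasEnoughRootsOfUnity.exists_primitiveRoot Kbar p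
  obtain ⟨σ₁, u, hσ₁I, hσ₁1, hσ₁x, hσ₁u, huA, huA', hu0, hup, hG₂, hσp, hfix, h5, hiff, h7⟩ :=
    exists_wildLevel (A := A) hp hA x t
      (Fermat.Agent.S17.H126.stabilizer_open (p * M') x) hχ hsh hpeu ht.1 hσ₀ hσ₀1 hσ₀x hζ
  obtain ⟨ft, f₂, G₀, Ft, f, κ, hlc, hord, hnp, hKt, hFt, hKx, hf, hf₂0, hdiv₂, hκ, hσ⟩ :=
    hKD p M' hp hp5 hpM A hA S a hNE x t hx hex ht het hχ hsh hpeu σ₀ hσ₀ hσ₀1 hσ₀x ζ hζ σ₁ u
      hσ₁I hσ₁1 hσ₁x hσ₁u huA huA' hu0 hup hG₂ hσp hfix h5 hiff h7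
  exact wildFrame_core p M' hp hp5 hpM A hA S a hNE x t ht het hχ ζ hζ σ₁ u hσ₁I hσ₁1 hσ₁u
    huA huA' hu0 hup hG₂ ft f₂ G₀ Ft f κ hlc hord hnp hKt hFt hKx hf hf₂0 hdiv₂ hκ hσ

end Core

end Fermat.Agent.Ribet.H712.Frame

end
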