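import Fermat.Agent.Ribet.H712.WildFrameAsm

/-!
# Row 38 / S59 gate, WALL-p, CORE-OUT WILD: the frame for ODD `p`, abstract unit pair  (helper712)

`H712.Frame.wildFrame_core` (`WildFrameAsm.lean`) uses `5 ≤ p` only for
* the exponent `12 (p - 1)` of the unit pair `D · D' = w ^ (12 e)` (prime to `p` iff `p ≠ 3`),
* the hypotheses `p = 3 → 2 ∣ M'`, `p = 2 → 3 ∣ M'` of `H279.TwoLevel.twoLevelModel`,
* `p ≠ 2` (`H339.deepSplit339`).

Here the unit pair is an ABSTRACT input (`UnitPairAt`), `p` is any odd prime and `p = 3` needs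
`2 ∣ M'`:

`wildFrame_core_odd` : LEVEL (`H944`) + KD data + `UnitPairAt` ⟹ `Nonempty (WildFrame …)` with
`D₂ = levelMap D₁`, `Q D₁` (`Q` = any property of the first member of the pair, e.g. its
`t`-expansion).
-/

set_option autoImplicit false
set_option synthInstance.maxHeartbeats 400000
set_option maxHeartbeats 2000000
set_option linter.unusedSectionVars false
set_option linter.unusedVariables false
set_option linter.style.haveILetI false

noncomputable section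

namespace Fermat.Agent.Ribet.H712.Frame

open ModularCurve HahnSeries AlgebraicCurve
open Fermat.Agent.S24 Fermat.Agent.A2 Fermat.Agent.Ribet.H704
open Fermat.Agent.Ribet.H704.CoreOut
open Fermat.Agent.Ribet.Spec Fermat.Agent.Ribet.H944.Wall Fermat.Agent.Ribet.H884

section Odd

open Fermat.Agent.Ribet.H944.Tame

variable (p M' : ℕ) [NeZero M'] [NeZero p] [NeZero (p * M')]

/-- **Abstract UNIT input** at a level `E`: for every uniformiser and both cuts of the chart of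
`xE`, a pair `D · D' = w ^ Nn` with `Nn` prime to `p`, `D ∉ 𝔭₁`, `D' ∉ 𝔭₂`, and `Q D`. -/
def UnitPairAt (A : ValuationSubring Kbar) (E : IntermediateField ℚ Kbar)
    (Q : ↥(Mod.FE E (M' * p)) → Prop) : Prop :=
  ∀ (w : Mod.RE A E), Mod.Setting A E M' p w →
    ∀ (V : ValuationSubring (Mod.FE E (M' * p)))
      (W : Mod.FE E (M' * p) ≃ₐ[E] Mod.FE E (M' * p)),
      Mod.IsVinf A E (M' * p) V → Mod.IsFricke E (M' * p) W →
      ∀ p₁ p₂ : Ideal (Mod.chartAlg A E (M' * p) (Mod.xE E M' p)),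
        Mod.IsCut A E (M' * p) w V (Mod.chartAlg A E (M' * p) (Mod.xE E M' p)) p₁ →
        Mod.IsCut A E (M' * p) w (V.comap (W : Mod.FE E (M' * p) →+* Mod.FE E (M' * p)))
          (Mod.chartAlg A E (M' * p) (Mod.xE E M' p)) p₂ →
        ∃ (Nn : ℕ) (D D' : Mod.chartAlg A E (M' * p) (Mod.xE E M' p)), Nat.Coprime Nn p ∧
          D * D' =
            algebraMap (Mod.RE A E) (Mod.chartAlg A E (M' * p) (Mod.xE E M' p)) w ^ Nn ∧
          D ∉ p₁ ∧ D' ∉ p₂ ∧ Q (D : Mod.FE E (M' * p))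

/-- The unit pair of `H463` (`Δ(t)/Δ(t^p)`, exponent `12 (p - 1)`) for `5 ≤ p`. -/
theorem unitPairAt_of_five_le (hp : p.Prime) (hp5 : 5 ≤ p) (A : ValuationSubring Kbar)
    (hA : A.LiesOverPrime p) (ζ : Kbar) (hζ : IsPrimitiveRoot ζ p) :
    UnitPairAt p M' A (tameLevel A ζ) (fun D =>
      ((D : Mod.FE (tameLevel A ζ) (M' * p)) : LaurentSeries (tameLevel A ζ)) =
        Fermat.Agent.S36.H438.castE (tameLevel A ζ) (Fermat.Agent.S28.H589.unitL' p)) := by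
  intro w hS V W hV hW p₁ p₂ hc₁ hc₂
  obtain ⟨e, D, D', he, hass, hmul, hD, hD', hDe⟩ :=
    Fermat.Agent.Ribet.H463.UnitExp.exists_unitPair_cut_exp463 hS hV hW p₁ p₂ hc₁ hc₂
  haveI : IsDiscreteValuationRing (Mod.RE A (tameLevel A ζ)) := hS.dvr
  have hee : e = p - 1 :=
    exp_eq_of_associated hS.unif hass (associated_natCast_pow hp hA hζ w hS.unif)
  refine ⟨12 * e, D, D', ?_, hmul, hD, hD', hDe⟩
  rw [hee]
  exact coprime_unitExp hp hp5

/-- **The frame from the KD data, `p` odd, abstract unit pair** (levels `E₁ = tameLevel A ζ`,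
`E₂ = wildLevel A ζ u`). -/
theorem wildFrame_core_odd (hp : p.Prime) (hp2 : p ≠ 2) (h3 : p = 3 → 2 ∣ M') (hpM : ¬ p ∣ M')
    (A : ValuationSubring Kbar) (hA : A.LiesOverPrime p)
    (S : Finset ℕ) (a : ℕ → ℤ) (hNE : NonEisAway p a) (t : JZero (p * M'))
    (ht : IsNewTors p M' t) (het : EigenAt (p * M') S a t)
    (hχ : ∀ σ ∈ A.inertiaSubgroupIn ℚ, ∀ c : ℕ, CycloAt p σ c → σ • t = c • t)
    (ζ : Kbar) (hζ : IsPrimitiveRoot ζ p) (σ₁ : GQ) (u : Kbar)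
    (hσ₁I : σ₁ ∈ A.inertiaSubgroupIn ℚ) (hσ₁1 : CycloAt p σ₁ 1)
    (hσ₁u : σ₁ u = ζ * u) (huA : u ∈ A) (huA' : u⁻¹ ∈ A) (hu0 : u ≠ 0)
    (hup : u ^ p ∈ tameLevel A ζ)
    (hG₂ : GoodField A (wildLevel A ζ u))
    (Q : ↥(Mod.FE (tameLevel A ζ) (M' * p)) → Prop)
    (hUnit : UnitPairAt p M' A (tameLevel A ζ) Q)
    (ft : Mod.FE (tameLevel A ζ) (M' * p))
    (f₂ G₀ : Mod.FE (wildLevel A ζ u) (M' * p)) (Ft : FF (p * M')) (κ : Kbar)
    (hlc : (ft : LaurentSeries (tameLevel A ζ)).leadingCoeff = 1)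
    (hord : (p : ℤ) ∣ (ft : LaurentSeries (tameLevel A ζ)).order)
    (hnp : ∀ z : Mod.FE (tameLevel A ζ) (M' * p), z ^ p ≠ ft)
    (hKt : IsKummerGen (p * M') p Ft t)
    (hFt : (Ft : LaurentSeries Kbar) = coeffMap (algebraMap (tameLevel A ζ) Kbar)
      (ft : LaurentSeries (tameLevel A ζ)))
    (hf₂0 : f₂ ≠ 0) (hdiv₂ : DivisibleDiv (wildLevel A ζ u) p f₂)
    (hκ : κ ∈ wildLevel A ζ u)
    (hσ : coeffMap ((σ₁ : Kbar ≃ₐ[ℚ] Kbar) : Kbar →+* Kbar)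
          (coeffMap (algebraMap (wildLevel A ζ u) Kbar)
            (f₂ : LaurentSeries (wildLevel A ζ u))) =
        coeffMap (algebraMap (wildLevel A ζ u) Kbar)
            (f₂ : LaurentSeries (wildLevel A ζ u)) *
          HahnSeries.C κ *
          coeffMap (algebraMap (tameLevel A ζ) Kbar)
            (ft : LaurentSeries (tameLevel A ζ)) *
          (coeffMap (algebraMap (wildLevel A ζ u) Kbar)
            (G₀ : LaurentSeries (wildLevel A ζ u))) ^ p) :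
    ∃ (w₂ : Mod.RE A (wildLevel A ζ u))
      (c₂ : SSChart w₂ (Mod.chartAlg A (wildLevel A ζ u) (M' * p)
        (Mod.xE (wildLevel A ζ u) M' p)))
      (D₁ : Mod.FE (tameLevel A ζ) (M' * p)),
      Mod.Setting A (wildLevel A ζ u) M' p w₂ ∧
      Alg.ChartCtx (wildLevel A ζ u) w₂ (Mod.xE (wildLevel A ζ u) M' p)
        (Mod.chartAlg A (wildLevel A ζ u) (M' * p) (Mod.xE (wildLevel A ζ u) M' p)) ∧
      Q D₁ ∧
      Nonempty (WildFrame p (Mod.RE A (wildLevel A ζ u)) (wildLevel A ζ u)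
        (Mod.FE (wildLevel A ζ u) (M' * p)) w₂
        (Mod.chartAlg A (wildLevel A ζ u) (M' * p) (Mod.xE (wildLevel A ζ u) M' p)) c₂ f₂
        (levelMap (M' * p) (tameLevel_le_wildLevel A ζ u) D₁)) := by
  classical
  have hN : M' * p ≠ 0 := mul_ne_zero (NeZero.ne M') hp.ne_zero
  haveI : NeZero (M' * p) := ⟨hN⟩
  have hle : tameLevel A ζ ≤ wildLevel A ζ u := tameLevel_le_wildLevel A ζ u
  have hG₁ : GoodField A (tameLevel A ζ) := goodField_tameLevel A hp hA ζ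
  have hdvr₁ : IsDiscreteValuationRing (Mod.RE A (tameLevel A ζ)) := hG₁.dvr
  have hdvr₂ : IsDiscreteValuationRing (Mod.RE A (wildLevel A ζ u)) := hG₂.dvr
  obtain ⟨w₁, hw₁⟩ := IsDiscreteValuationRing.exists_irreducible (Mod.RE A (tameLevel A ζ))
  obtain ⟨w₂, hw₂⟩ := IsDiscreteValuationRing.exists_irreducible (Mod.RE A (wildLevel A ζ u))
  have hS₁ : Mod.Setting A (tameLevel A ζ) M' p w₁ :=
    ⟨hp, hpM, NeZero.ne M', hA, hdvr₁, hw₁⟩
  have hS₂ : Mod.Setting A (wildLevel A ζ u) M' p w₂ :=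
    ⟨hp, hpM, NeZero.ne M', hA, hdvr₂, hw₂⟩
  -- MODEL
  obtain ⟨c₁, c₂, ctx₁, ctx₂, hcut₁, -, hmap, hcomp₁, hcomp₂, hunif⟩ :=
    Fermat.Agent.Ribet.H279.TwoLevel.twoLevelModel A hle M' p hS₁ hS₂
      h3 (fun h => absurd h hp2)
  rw [levelMap_eq_279] at hmap hcomp₁ hcomp₂
  rw [reMap_eq_279] at hunif
  obtain ⟨V₁, hV₁⟩ := Mod.H553.vinfExists A (tameLevel A ζ) (M' * p) hN hdvr₁
  have hW₁ : Mod.IsFricke (tameLevel A ζ) (M' * p) (Mod.H553.wE (tameLevel A ζ) (M' * p)) :=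
    Mod.H553.isFricke_wE (tameLevel A ζ) (M' * p)
  obtain ⟨hc₁₁, hc₁₂⟩ := hcut₁ V₁ (Mod.H553.wE (tameLevel A ζ) (M' * p)) hV₁ hW₁
  -- UNIT (abstract input)
  obtain ⟨Nn, D, D', hN12, hmul, hD, hD', hQ⟩ :=
    hUnit w₁ hS₁ V₁ (Mod.H553.wE (tameLevel A ζ) (M' * p)) hV₁ hW₁ c₁.p₁ c₁.p₂ hc₁₁ hc₁₂
  -- DEEP-SPLIT
  obtain ⟨hftdiv, hsp₁, hsp₂⟩ :=
    Fermat.Agent.Ribet.H339.deepSplit339 p M' hp hp2 hpM A hA S a hNE t ht het hχ
      (tameLevel A ζ) hG₁ w₁ hS₁ V₁ hV₁ (Mod.H553.wE (tameLevel A ζ) (M' * p)) hW₁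
      (Mod.xE (tameLevel A ζ) M' p) (Or.inl rfl) c₁.p₁ c₁.p₂ hc₁₁ hc₁₂ Ft hKt ft hFt 1
      (by rw [hlc, one_pow])
  have hft0 : ft ≠ 0 := by
    intro h0
    have h1 : (ft : LaurentSeries (tameLevel A ζ)) = 0 := by rw [h0]; rfl
    rw [h1, HahnSeries.leadingCoeff_zero] at hlc
    exact zero_ne_one hlc
  -- the root of unity `ζ⁻¹ = ζ ^ (p - 1)`
  have hcop : Nat.Coprime (p - 1) p := by
    rw [Nat.coprime_comm, Nat.Prime.coprime_iff_not_dvd hp]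
    intro h
    have h2 := hp.two_le
    have := Nat.le_of_dvd (by omega) h
    omega
  have hζ' : IsPrimitiveRoot (ζ ^ (p - 1)) p := hζ.pow_of_coprime (p - 1) hcop
  have hζmul : ζ * ζ ^ (p - 1) = 1 := by
    rw [← pow_succ', Nat.sub_add_cancel hp.one_le, hζ.pow_eq_one]
  have hζinv : (ζ ^ (p - 1))⁻¹ = ζ := inv_eq_of_mul_eq_one_left hζmul
  have hζE : ζ ^ (p - 1) ∈ tameLevel A ζ := pow_mem (zeta_mem_tameLevel A ζ) _
  have hζA : ζ ^ (p - 1) ∈ A := pow_mem (mem_of_pow_eq_one A hp.ne_zero hζ.pow_eq_one) _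
  have hσE : ∀ c ∈ tameLevel A ζ, (σ₁ : Kbar ≃ₐ[ℚ] Kbar).toRingEquiv c = c := fun c hc =>
    inK1_of_mem_tameLevel A hζ.pow_eq_one hc σ₁ hσ₁I hσ₁1
  have hσu' : (σ₁ : Kbar ≃ₐ[ℚ] Kbar).toRingEquiv u = (ζ ^ (p - 1))⁻¹ * u := by
    rw [hζinv]
    exact hσ₁u
  -- COVER
  let c : Fermat.Agent.Ribet.H819.PerCtx Kbar :=
    Fermat.Agent.Ribet.H819.PerCtx.ofKummer (modularFunctionFieldFull (M' * p)) p hp
      (tameLevel A ζ) (ζ ^ (p - 1)) hζ' hζE (σ₁ : Kbar ≃ₐ[ℚ] Kbar).toRingEquiv hσE u hσu' hu0 hup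
      ft hlc hord hnp
  have hhp : c.h ^ p = sIota (tameLevel A ζ) (M' * p) ft :=
    Fermat.Agent.Ribet.H819.PerCtx.ofKummer_h_pow (modularFunctionFieldFull (M' * p)) p hp
      (tameLevel A ζ) (ζ ^ (p - 1)) hζ' hζE (σ₁ : Kbar ≃ₐ[ℚ] Kbar).toRingEquiv hσE u hσu' hu0 hup
      ft hlc hord hnp
  have hhF : c.h ∉ Set.range (sIota (tameLevel A ζ) (M' * p)) := by
    intro hmem
    apply c.hhF
    obtain ⟨z, hz⟩ := hmem
    exact (Fermat.Agent.Ribet.H819.mem_imBC_iff (modularFunctionFieldFull (M' * p))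
      (tameLevel A ζ) _).mpr ⟨z, hz⟩
  -- constants
  let ζR : Mod.RE A (tameLevel A ζ) := ⟨⟨ζ ^ (p - 1), hζE⟩, hζA⟩
  have hζR : IsPrimitiveRoot ζR p := by
    let φ : Mod.RE A (tameLevel A ζ) →+* Kbar :=
      (algebraMap (tameLevel A ζ) Kbar).comp (Mod.RE A (tameLevel A ζ)).subtype
    have hφ : Function.Injective φ := fun x y h => coe_injective A _ h
    have h1 : IsPrimitiveRoot (φ ζR) p := hζ'
    exact IsPrimitiveRoot.of_map_of_injective h1 hφ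
  let cc : Mod.RE A (tameLevel A ζ) := ⟨⟨u ^ p, hup⟩, pow_mem huA p⟩
  have hcc : IsUnit cc := by
    have hinvA : (u ^ p)⁻¹ ∈ A := by
      rw [← inv_pow]
      exact pow_mem huA' p
    refine isUnit_iff_exists_inv.mpr ⟨⟨⟨(u ^ p)⁻¹, inv_mem hup⟩, hinvA⟩, ?_⟩
    apply Subtype.ext
    apply Subtype.ext
    show u ^ p * (u ^ p)⁻¹ = 1
    exact mul_inv_cancel₀ (pow_ne_zero p hu0)
  let lc : ↥(wildLevel A ζ u) := (f₂ : LaurentSeries (wildLevel A ζ u)).leadingCoeff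
  have hlc0 : lc ≠ 0 :=
    HahnSeries.leadingCoeff_ne_zero.mpr (fun h => hf₂0 (Subtype.ext h))
  have hζc : sIota (tameLevel A ζ) (M' * p)
      (algebraMap (Mod.RE A (tameLevel A ζ)) (Mod.FE (tameLevel A ζ) (M' * p)) ζR) =
      HahnSeries.C c.ζ := sIota_algebraMap_RE A (M' * p) (tameLevel A ζ) ζR
  have ha : sIota (tameLevel A ζ) (M' * p)
      (algebraMap (Mod.RE A (tameLevel A ζ)) (Mod.FE (tameLevel A ζ) (M' * p)) cc) =
      HahnSeries.C (c.u ^ c.p) := sIota_algebraMap_RE A (M' * p) (tameLevel A ζ) cc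
  have hℓ : sIota (wildLevel A ζ u) (M' * p)
      (algebraMap ↥(wildLevel A ζ u) (Mod.FE (wildLevel A ζ u) (M' * p)) lc) =
      HahnSeries.C (sIota (wildLevel A ζ u) (M' * p) f₂).leadingCoeff := by
    rw [sIota_algebraMap, sIota_apply,
      Fermat.Agent.Ribet.H819.leadingCoeff_coeffMap_of_injective]
    rfl
  -- PER
  letI iK : Algebra ↥(Mod.FE (tameLevel A ζ) (M' * p)) ↥(Mod.FE (wildLevel A ζ u) (M' * p)) :=
    (levelMap (M' * p) hle).toAlgebra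
  obtain ⟨f', G, b, hf', hG, hb, hper, hf2⟩ :=
    c.per_cov (modularFunctionFieldFull (M' * p)) (E₁ := tameLevel A ζ)
      (E₂ := wildLevel A ζ u) rfl (Fermat.Agent.Ribet.H819.wildLevel_toSubfield A ζ u) rfl
      (hζR.map_of_injective (algebraMap_RE_FE_injective A (tameLevel A ζ) (M' * p))) hζc
      ft hhp hhF
      (algebraMap (Mod.RE A (tameLevel A ζ)) (Mod.FE (tameLevel A ζ) (M' * p)) cc) ha
      f₂ G₀ (algebraMap ↥(wildLevel A ζ u) (Mod.FE (wildLevel A ζ u) (M' * p)) lc) hf₂0 hℓ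
      κ hκ hσ
  -- HOR-DESC
  have hf'div : ∀ V : ValuationSubring ↥(cov (sIota (tameLevel A ζ) (M' * p)) c.h),
      IsDiscreteValuationRing V →
      (∀ e : ↥(tameLevel A ζ), covMap (sIota (tameLevel A ζ) (M' * p)) c.h
        (algebraMap ↥(tameLevel A ζ) (Mod.FE (tameLevel A ζ) (M' * p)) e) ∈ V) →
      ∃ g v : ↥(cov (sIota (tameLevel A ζ) (M' * p)) c.h), g ≠ 0 ∧ v ∈ V ∧ v⁻¹ ∈ V ∧
        f' = v * g ^ p := by
    letI iK₁L₁ : Algebra ↥(Mod.FE (tameLevel A ζ) (M' * p))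
        ↥(cov (sIota (tameLevel A ζ) (M' * p)) c.h) :=
      covAlgebra (sIota (tameLevel A ζ) (M' * p)) c.h
    letI iE₁L₁ : Algebra ↥(tameLevel A ζ) ↥(cov (sIota (tameLevel A ζ) (M' * p)) c.h) :=
      ((covMap (sIota (tameLevel A ζ) (M' * p)) c.h).comp
        (algebraMap ↥(tameLevel A ζ) ↥(Mod.FE (tameLevel A ζ) (M' * p)))).toAlgebra
    letI iK₂L₂ : Algebra ↥(Mod.FE (wildLevel A ζ u) (M' * p))
        ↥(cov (sIota (wildLevel A ζ u) (M' * p)) c.h) :=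
      covAlgebra (sIota (wildLevel A ζ u) (M' * p)) c.h
    letI iL₁L₂ : Algebra ↥(cov (sIota (tameLevel A ζ) (M' * p)) c.h)
        ↥(cov (sIota (wildLevel A ζ u) (M' * p)) c.h) :=
      (covIncl (sIota (tameLevel A ζ) (M' * p)) c.h (sIota (wildLevel A ζ u) (M' * p))
        (levelMap (M' * p) hle) (sIota_levelMap (M' * p) hle)).toAlgebra
    letI iK₁L₂ : Algebra ↥(Mod.FE (tameLevel A ζ) (M' * p))
        ↥(cov (sIota (wildLevel A ζ u) (M' * p)) c.h) :=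
      ((covMap (sIota (wildLevel A ζ u) (M' * p)) c.h).comp (levelMap (M' * p) hle)).toAlgebra
    haveI t1 : IsScalarTower ↥(Mod.FE (tameLevel A ζ) (M' * p))
        ↥(Mod.FE (wildLevel A ζ u) (M' * p)) ↥(cov (sIota (wildLevel A ζ u) (M' * p)) c.h) :=
      IsScalarTower.of_algebraMap_eq (fun _ => rfl)
    haveI t2 : IsScalarTower ↥(Mod.FE (tameLevel A ζ) (M' * p))
        ↥(cov (sIota (tameLevel A ζ) (M' * p)) c.h)
        ↥(cov (sIota (wildLevel A ζ u) (M' * p)) c.h) :=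
      IsScalarTower.of_algebraMap_eq (fun z =>
        Subtype.ext (sIota_levelMap (M' * p) hle z))
    haveI : Algebra.IsAlgebraic ℚ Kbar := AlgebraicClosure.isAlgebraic ℚ
    have halgE₂ : Algebra.IsAlgebraic ℚ ↥(wildLevel A ζ u) :=
      Fermat.Agent.Ribet.H769.isAlgebraic_rat_intermediateField769 (wildLevel A ζ u)
    have hK₂ : IntermediateField.adjoin ↥(Mod.FE (tameLevel A ζ) (M' * p))
        (Set.range (algebraMap ↥(wildLevel A ζ u) ↥(Mod.FE (wildLevel A ζ u) (M' * p)))) = ⊤ :=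
      Fermat.Agent.Ribet.H769.adjoin_const_laurentBaseChange769
        (modularFunctionFieldFull (M' * p)) (incE hle) (fun _ => rfl)
    have hfr := Fermat.Agent.Ribet.H769.horDesc_frame769
      (E₁ := ↥(tameLevel A ζ)) (K₁ := ↥(Mod.FE (tameLevel A ζ) (M' * p)))
      (L₁ := ↥(cov (sIota (tameLevel A ζ) (M' * p)) c.h))
      (E₂ := ↥(wildLevel A ζ u)) (K₂ := ↥(Mod.FE (wildLevel A ζ u) (M' * p)))
      (L₂ := ↥(cov (sIota (wildLevel A ζ u) (M' * p)) c.h))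
      halgE₂ p hK₂ (covGen (sIota (tameLevel A ζ) (M' * p)) c.h)
      (adjoin_covGen (sIota (wildLevel A ζ u) (M' * p)) c.h)
      (f₂ := f₂) hdiv₂ (f' := f') (lc := lc) (b := b) hlc0 hb (Subtype.ext hf2)
    exact hfr
  have hp_mem : (p : Mod.RE A (tameLevel A ζ)) ∈
      IsLocalRing.maximalIdeal (Mod.RE A (tameLevel A ζ)) := by
    rw [IsLocalRing.mem_maximalIdeal, mem_nonunits_iff]
    exact Fermat.Agent.Ribet.H873.not_isUnit_natCast873 hA
  exact ⟨w₂, c₂, (D : Mod.FE (tameLevel A ζ) (M' * p)), hS₂, ctx₂, hQ,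
    nonempty_wildFrame p M' hp A (tameLevel A ζ) (wildLevel A ζ u) hle w₁ w₂ c₂ f₂
      (levelMap (M' * p) hle (D : Mod.FE (tameLevel A ζ) (M' * p))) hdvr₁ hG₁.algClosed hp_mem
      ζR hζR ctx₁ c₁ hmap hcomp₁ hcomp₂ hunif Nn D D' hN12 hmul hD hD' rfl
      ft hft0 hftdiv hsp₁ hsp₂ c.h hhp hhF f' G cc hf' hG hcc hper hf'div lc b hlc0 hb hf2⟩

end Odd

end Fermat.Agent.Ribet.H712.Frame

end
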