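import Fermat.Agent.Ribet.H712.WildFrameOdd
import Fermat.Agent.Ribet.H132.WildOfFrame

/-!
# WALL-p, CORE-OUT WILD for ODD `p` with an ABSTRACT unit  (helper712)

`H704.CoreOut.wild_of` (the glue WILD-FRAME + WILD-CHART + SMOOTH-PURE + DICT-PURE ⟹ WILD) for
* any odd prime `p` (`p = 3` needs `2 ∣ M'`),
* an abstract unit: `UnitPairAt p M' A (tameLevel A ζ) Q` (the pair in the chart) and, for the
  first member `D₁` of the pair, a function `D ∈ FF (p M')` with `QQ D`, `D ≠ 0`,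
  `D · (D₁ over ℚ̄) = 1`.

`wildSlope_core_odd` : LEVEL data (`H944.exists_wildLevel`) + KD outputs + the unit ⟹
`∃ f D G n a b, IsKummerGen f x ∧ QQ D ∧ D ≠ 0 ∧ ¬ p ∣ n ∧ G * D ^ b = f ^ n * D ^ a ∧ NodeGen G`
(= `H884.SlopeProp` with `IsModUnit` replaced by `QQ`).
WILD-CHART `H132.wildChart`, SMOOTH-PURE `H520.smoothPure`, DICT-PURE `H472.dictPure` are
`p`-generic and plugged.
-/

set_option autoImplicit false
set_option synthInstance.maxHeartbeats 400000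
set_option maxHeartbeats 2000000
set_option linter.unusedSectionVars false
set_option linter.unusedVariables false
set_option linter.style.haveILetI false

noncomputable section

namespace Fermat.Agent.Ribet.H712.Frame

open ModularCurve HahnSeries AlgebraicCurve
open Fermat.Agent.S24 Fermat.Agent.A2 Fermat.Agent.Ribet.H704
open Fermat.Agent.Ribet.H704.CoreOut
open Fermat.Agent.Ribet.Spec Fermat.Agent.Ribet.H944.Wall Fermat.Agent.Ribet.H884

section OddSlope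

open Fermat.Agent.Ribet.H944.Tame

variable (p M' : ℕ) [NeZero M'] [NeZero p] [NeZero (p * M')]

/-- **WILD with an abstract unit, `p` odd.** -/
theorem wildSlope_core_odd (hp : p.Prime) (hp2 : p ≠ 2) (h3 : p = 3 → 2 ∣ M') (hpM : ¬ p ∣ M')
    (A : ValuationSubring Kbar) (hA : A.LiesOverPrime p)
    (S : Finset ℕ) (a : ℕ → ℤ) (hNE : NonEisAway p a) (x t : JZero (p * M'))
    (ht : IsNewTors p M' t) (het : EigenAt (p * M') S a t)
    (hχ : ∀ σ ∈ A.inertiaSubgroupIn ℚ, ∀ c : ℕ, CycloAt p σ c → σ • t = c • t)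
    (ζ : Kbar) (hζ : IsPrimitiveRoot ζ p) (σ₁ : GQ) (u : Kbar)
    (hσ₁I : σ₁ ∈ A.inertiaSubgroupIn ℚ) (hσ₁1 : CycloAt p σ₁ 1)
    (hσ₁u : σ₁ u = ζ * u) (huA : u ∈ A) (huA' : u⁻¹ ∈ A) (hu0 : u ≠ 0)
    (hup : u ^ p ∈ tameLevel A ζ)
    (hG₂ : GoodField A (wildLevel A ζ u))
    (Q : ↥(Mod.FE (tameLevel A ζ) (M' * p)) → Prop)
    (hUnit : UnitPairAt p M' A (tameLevel A ζ) Q)
    (ft : Mod.FE (tameLevel A ζ) (M' * p))
    (f₂ G₀ : Mod.FE (wildLevel A ζ u) (M' * p)) (Ft : FF (p * M')) (κ : Kbar)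
    (hlc : (ft : LaurentSeries (tameLevel A ζ)).leadingCoeff = 1)
    (hord : (p : ℤ) ∣ (ft : LaurentSeries (tameLevel A ζ)).order)
    (hnp : ∀ z : Mod.FE (tameLevel A ζ) (M' * p), z ^ p ≠ ft)
    (hKt : IsKummerGen (p * M') p Ft t)
    (hFt : (Ft : LaurentSeries Kbar) = coeffMap (algebraMap (tameLevel A ζ) Kbar)
      (ft : LaurentSeries (tameLevel A ζ)))
    (f : FF (p * M')) (hKx : IsKummerGen (p * M') p f x)
    (hf : (f : LaurentSeries Kbar) = coeffMap (algebraMap (wildLevel A ζ u) Kbar)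
      (f₂ : LaurentSeries (wildLevel A ζ u)))
    (QQ : FF (p * M') → Prop)
    (hQbar : ∀ D₁ : ↥(Mod.FE (tameLevel A ζ) (M' * p)), Q D₁ →
      ∃ D : FF (p * M'), QQ D ∧ D ≠ 0 ∧
        (D : LaurentSeries Kbar) * coeffMap (algebraMap (tameLevel A ζ) Kbar)
          (D₁ : LaurentSeries (tameLevel A ζ)) = 1)
    (hf₂0 : f₂ ≠ 0) (hdiv₂ : DivisibleDiv (wildLevel A ζ u) p f₂)
    (hκ : κ ∈ wildLevel A ζ u)
    (hσ : coeffMap ((σ₁ : Kbar ≃ₐ[ℚ] Kbar) : Kbar →+* Kbar)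
          (coeffMap (algebraMap (wildLevel A ζ u) Kbar)
            (f₂ : LaurentSeries (wildLevel A ζ u))) =
        coeffMap (algebraMap (wildLevel A ζ u) Kbar)
            (f₂ : LaurentSeries (wildLevel A ζ u)) *
          HahnSeries.C κ *
          coeffMap (algebraMap (tameLevel A ζ) Kbar)
            (ft : LaurentSeries (tameLevel A ζ)) *
          (coeffMap (algebraMap (wildLevel A ζ u) Kbar)
            (G₀ : LaurentSeries (wildLevel A ζ u))) ^ p) :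
    ∃ (f D G : FF (p * M')) (n a b : ℕ), IsKummerGen (p * M') p f x ∧ QQ D ∧ D ≠ 0 ∧
      ¬ p ∣ n ∧ G * D ^ b = f ^ n * D ^ a ∧ NodeGen p M' A G := by
  obtain ⟨w₂, c₂, D₁, hSet, hctx, hQ, ⟨W⟩⟩ :=
    wildFrame_core_odd p M' hp hp2 h3 hpM A hA S a hNE t ht het hχ ζ hζ σ₁ u hσ₁I hσ₁1 hσ₁u
      huA huA' hu0 hup hG₂ Q hUnit ft f₂ G₀ Ft κ hlc hord hnp hKt hFt hf₂0 hdiv₂ hκ hσ
  obtain ⟨D, hQQ, hD0, hDD₁⟩ := hQbar D₁ hQ
  -- the unit at the wild level
  have hDD₂ : (D : LaurentSeries Kbar) * coeffMap (algebraMap (wildLevel A ζ u) Kbar)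
      ((levelMap (M' * p) (tameLevel_le_wildLevel A ζ u) D₁ : Mod.FE (wildLevel A ζ u) (M' * p)) :
        LaurentSeries (wildLevel A ζ u)) = 1 := by
    have h1 := sIota_levelMap (M' * p) (tameLevel_le_wildLevel A ζ u) D₁
    rw [sIota_apply, sIota_apply] at h1
    rw [h1]
    exact hDD₁
  generalize levelMap (M' * p) (tameLevel_le_wildLevel A ζ u) D₁ = D₂ at W hDD₂
  haveI : IsDiscreteValuationRing (Mod.RE A (wildLevel A ζ u)) := hSet.dvr
  have halg : IsAlgClosed (IsLocalRing.ResidueField (Mod.RE A (wildLevel A ζ u))) :=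
    hG₂.algClosed
  obtain ⟨i, hi⟩ := Fermat.Agent.Ribet.H132.wildChart p (Mod.RE A (wildLevel A ζ u))
    (wildLevel A ζ u) (Mod.FE (wildLevel A ζ u) (M' * p)) w₂ (Mod.xE (wildLevel A ζ u) M' p)
    (Mod.chartAlg A (wildLevel A ζ u) (M' * p) (Mod.xE (wildLevel A ζ u) M' p)) c₂ f₂ D₂ hp halg
    hctx hf₂0 hdiv₂ W
  have hD₂0 : D₂ ≠ 0 := by
    rintro rfl
    have h0 : ((0 : Mod.FE (wildLevel A ζ u) (M' * p)) : LaurentSeries (wildLevel A ζ u)) = 0 :=
      rfl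
    rw [h0, map_zero, mul_zero] at hDD₂
    exact zero_ne_one hDD₂
  have hG₂0 : f₂ * D₂ ^ i ≠ 0 := mul_ne_zero hf₂0 (pow_ne_zero _ hD₂0)
  have hw₂0 : algebraMap (Mod.RE A (wildLevel A ζ u)) (Mod.FE (wildLevel A ζ u) (M' * p)) w₂ ≠
      0 := by
    have hw0 : w₂ ≠ 0 := hSet.unif.ne_zero
    intro h0
    apply hw0
    have h1 : algebraMap (wildLevel A ζ u) (Mod.FE (wildLevel A ζ u) (M' * p))
        (w₂ : wildLevel A ζ u) = 0 := h0
    have h2 : (w₂ : wildLevel A ζ u) = 0 := by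
      rwa [map_eq_zero_iff _
        (algebraMap (wildLevel A ζ u) (Mod.FE (wildLevel A ζ u) (M' * p))).injective] at h1
    exact Subtype.ext h2
  -- purity at every closed point of the special fibre
  have hpure : ChartPure A (wildLevel A ζ u) M' p w₂ (f₂ * D₂ ^ i) := by
    intro n hn hwn
    by_cases hcr : c₂.p₁ ≤ n ∧ c₂.p₂ ≤ n
    · exact hi n hn hcr.1 hcr.2
    · refine Fermat.Agent.Ribet.H520.smoothPure (Mod.RE A (wildLevel A ζ u)) (wildLevel A ζ u)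
        (Mod.FE (wildLevel A ζ u) (M' * p)) w₂ (Mod.xE (wildLevel A ζ u) M' p)
        (Mod.chartAlg A (wildLevel A ζ u) (M' * p) (Mod.xE (wildLevel A ζ u) M' p)) c₂ hctx p
        hp.ne_zero (f₂ * D₂ ^ i) hG₂0 ?_ n hn hwn hcr
      intro V hV hBV hwV
      have hBV' : ∀ b : Mod.chartAlg A (wildLevel A ζ u) (M' * p)
          (Mod.xE (wildLevel A ζ u) M' p),
          (b : Mod.FE (wildLevel A ζ u) (M' * p)) ∈ V := hBV
      have hwV' : (algebraMap (Mod.RE A (wildLevel A ζ u))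
          (Mod.FE (wildLevel A ζ u) (M' * p)) w₂)⁻¹ ∈ V := hwV
      have hE : ∀ e : wildLevel A ζ u,
          algebraMap (wildLevel A ζ u) (Mod.FE (wildLevel A ζ u) (M' * p)) e ∈ V :=
        algebraMap_mem_of_inv_unif hSet.unif V
          (fun r => hBV' (algebraMap (Mod.RE A (wildLevel A ζ u)) _ r)) hwV'
      obtain ⟨g, v, hg0, hv, hv', hfv⟩ := hdiv₂ V hV hE
      obtain ⟨hDV, hDV'⟩ := W.unit_mem V hBV' hwV' hw₂0
      refine ⟨g, v * D₂ ^ i, V.mul_mem _ _ hv (pow_mem hDV i), ?_, ?_⟩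
      · rw [mul_inv, ← inv_pow]
        exact V.mul_mem _ _ hv' (pow_mem hDV' i)
      · rw [hfv]; ring
  -- the function over `ℚ̄`
  have hDinv : coeffMap (algebraMap (wildLevel A ζ u) Kbar)
      (D₂ : LaurentSeries (wildLevel A ζ u)) = ((D⁻¹ : FF (p * M')) : LaurentSeries Kbar) := by
    have h1 : ((D⁻¹ : FF (p * M')) : LaurentSeries Kbar) = (D : LaurentSeries Kbar)⁻¹ := rfl
    rw [h1]
    exact eq_inv_of_mul_eq_one_right hDD₂
  have hG' : ((f * D⁻¹ ^ i : FF (p * M')) : LaurentSeries Kbar) =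
      coeffMap (algebraMap (wildLevel A ζ u) Kbar)
        ((f₂ * D₂ ^ i : Mod.FE (wildLevel A ζ u) (M' * p)) :
          LaurentSeries (wildLevel A ζ u)) := by
    have h1 : ((f * D⁻¹ ^ i : FF (p * M')) : LaurentSeries Kbar) =
        (f : LaurentSeries Kbar) * ((D⁻¹ : FF (p * M')) : LaurentSeries Kbar) ^ i := rfl
    have h2 : ((f₂ * D₂ ^ i : Mod.FE (wildLevel A ζ u) (M' * p)) :
        LaurentSeries (wildLevel A ζ u)) =
        (f₂ : LaurentSeries (wildLevel A ζ u)) * (D₂ : LaurentSeries (wildLevel A ζ u)) ^ i :=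
      rfl
    rw [h1, h2, map_mul, map_pow, ← hf, hDinv]
  have hNG : NodeGen p M' A (f * D⁻¹ ^ i) :=
    Fermat.Agent.Ribet.H472.dictPure p M' hp hpM A hA (wildLevel A ζ u) w₂ hSet hG₂
      (f₂ * D₂ ^ i) (f * D⁻¹ ^ i) hG₂0 hG' hpure
  refine ⟨f, D, f * D⁻¹ ^ i, 1, 0, i, hKx, hQQ, hD0, ?_, ?_, hNG⟩
  · intro h
    have h1 := Nat.le_of_dvd Nat.one_pos h
    have h2 := hp.two_le
    omega
  · rw [pow_one, pow_zero, mul_one, inv_pow, mul_assoc, inv_mul_cancel₀ (pow_ne_zero _ hD0),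
      mul_one]

end OddSlope

end Fermat.Agent.Ribet.H712.Frame

end
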