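import Fermat.Agent.Ribet.H712.WildSlopeOdd
import Fermat.Agent.Ribet.H712.UnitPairGen
import Fermat.Agent.Ribet.H247.KDFinal
import Fermat.Agent.S17.H126.StabilizerOpen

/-!
# WALL-p, CORE-OUT: WILD for ODD `p` with an ABSTRACT unit, UNCONDITIONAL in LEVEL / KD
# (helper712)

`wildU_odd` : for `p` odd, `p ∤ M'`, (`p = 3 → 2 ∣ M'`), `A` over `p`, and an abstract unit
(`hU`: at every tame level `E₁ = tameLevel A ζ` a unit pair `UnitPairAt … Q` of the chart and,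
for its first member `D₁`, a function `D ∈ FF (p M')` with `QQ D`, `D ≠ 0`, `D · D₁ = 1`):
under the hypotheses of `H704.CoreOut.WildStatement` on `(x, t)`,

  `∃ f D G n a b, IsKummerGen f x ∧ QQ D ∧ D ≠ 0 ∧ ¬ p ∣ n ∧ G * D ^ b = f ^ n * D ^ a ∧ NodeGen G`

(= `H884.SlopeProp` with `IsModUnit` replaced by `QQ`).

Plugged from main: LEVEL `H944.Tame.exists_wildLevel` (+ `S17.H126.stabilizer_open`),
KD `H247.kd_core247` (`p`-generic), MODEL `H279`, DEEP-SPLIT `H339.deepSplit339`, PER/COVER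
`H819`, HOR-DESC `H769`, WILD-CHART `H132`, SMOOTH-PURE `H520`, DICT-PURE `H472`.

`unitData_of_package` : the hypothesis `hU` from a "mu-package" of ANY exponent `k` with
`k (p - 1)` prime to `p` (format of `S36.H438.mu_package` / `S59.Unit3.H461.mu3_package`).
-/

set_option autoImplicit false
set_option synthInstance.maxHeartbeats 400000
set_option maxHeartbeats 2000000
set_option linter.unusedSectionVars false
set_option linter.unusedVariables false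
set_option linter.style.haveILetI false

noncomputable section

namespace Fermat.Agent.Ribet.H712.Frame

open ModularCurve HahnSeries AlgebraicCurve
open Fermat.Agent.S24 Fermat.Agent.A2 Fermat.Agent.Ribet.H704
open Fermat.Agent.Ribet.H704.CoreOut
open Fermat.Agent.Ribet.Spec Fermat.Agent.Ribet.H944.Wall Fermat.Agent.Ribet.H884

section WildU

open Fermat.Agent.Ribet.H944.Tame

variable (p M' : ℕ) [NeZero M'] [NeZero p] [NeZero (p * M')]

/-- The abstract unit at the tame levels over `A`. -/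
def UnitData (A : ValuationSubring Kbar) (QQ : FF (p * M') → Prop) : Prop :=
  ∀ ζ : Kbar, IsPrimitiveRoot ζ p →
    ∃ Q : ↥(Mod.FE (tameLevel A ζ) (M' * p)) → Prop,
      UnitPairAt p M' A (tameLevel A ζ) Q ∧
      ∀ D₁ : ↥(Mod.FE (tameLevel A ζ) (M' * p)), Q D₁ →
        ∃ D : FF (p * M'), QQ D ∧ D ≠ 0 ∧
          (D : LaurentSeries Kbar) * coeffMap (algebraMap (tameLevel A ζ) Kbar)
            (D₁ : LaurentSeries (tameLevel A ζ)) = 1

/-- **WILD with an abstract unit, `p` odd** (pointwise at `(p, M', A)`; binders of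
`H704.CoreOut.WildStatement` after `A`). -/
theorem wildU_odd (hp : p.Prime) (hp2 : p ≠ 2) (h3 : p = 3 → 2 ∣ M') (hpM : ¬ p ∣ M')
    (A : ValuationSubring Kbar) (hA : A.LiesOverPrime p)
    (QQ : FF (p * M') → Prop) (hU : UnitData p M' A QQ)
    (S : Finset ℕ) (a : ℕ → ℤ) (hNE : NonEisAway p a) (x t : JZero (p * M'))
    (hx : IsNewTors p M' x) (hex : EigenAt (p * M') S a x)
    (ht : IsNewTors p M' t) (het : EigenAt (p * M') S a t)
    (hχ : ∀ σ ∈ A.inertiaSubgroupIn ℚ, ∀ c : ℕ, CycloAt p σ c → σ • t = c • t)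
    (hsh : ∀ σ ∈ A.inertiaSubgroupIn ℚ, ∃ n : ℕ, σ • x = x + n • t)
    (hpeu : ∀ σ : GQ, PeuFixes A p σ → σ • x = x)
    (σ₀ : GQ) (hσ₀ : σ₀ ∈ A.inertiaSubgroupIn ℚ) (hσ₀1 : CycloAt p σ₀ 1) (hσ₀x : σ₀ • x ≠ x) :
    ∃ (f D G : FF (p * M')) (n a b : ℕ), IsKummerGen (p * M') p f x ∧ QQ D ∧ D ≠ 0 ∧
      ¬ p ∣ n ∧ G * D ^ b = f ^ n * D ^ a ∧ NodeGen p M' A G := by
  haveI : NeZero ((p : ℕ) : Kbar) := ⟨Nat.cast_ne_zero.mpr hp.ne_zero⟩
  obtain ⟨ζ, hζ⟩ := HasEnoughRootsOfUnity.exists_primitiveRoot Kbar p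
  obtain ⟨σ₁, u, hσ₁I, hσ₁1, hσ₁x, hσ₁u, huA, huA', hu0, hup, hG₂, hσp, hfix, h5, hiff, h7⟩ :=
    exists_wildLevel (A := A) hp hA x t
      (Fermat.Agent.S17.H126.stabilizer_open (p * M') x) hχ hsh hpeu ht.1 hσ₀ hσ₀1 hσ₀x hζ
  have hp0 : p ≠ 0 := hp.ne_zero
  have ht0 : t ≠ 0 := by
    rintro rfl
    obtain ⟨n, hn⟩ := hsh σ₀ hσ₀
    rw [smul_zero, add_zero] at hn
    exact hσ₀x hn
  obtain ⟨ft, f₂, G₀, Ft, f, hlc, hord, hnp, hKt, hFt, hKx, hf, hf₂0, hdiv₂, hσ⟩ :=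
    Fermat.Agent.Ribet.H247.kd_core247 (p * M') (M' * p) (mul_comm M' p) hp0 A x t hx.1 ht.1
      ht0 hχ hσ₁I hσ₁x (tameLevel A ζ) (wildLevel A ζ u)
      (fun y hy => mem_tameLevel_of_inK1 A hζ hp0 hy)
      (fun e he => inK1_of_mem_tameLevel A hζ.pow_eq_one he)
      (fun y hy => (hiff y).mpr hy)
  obtain ⟨Q, hUnit, hQbar⟩ := hU ζ hζ
  exact wildSlope_core_odd p M' hp hp2 h3 hpM A hA S a hNE x t ht het hχ ζ hζ σ₁ u hσ₁I hσ₁1
    hσ₁u huA huA' hu0 hup hG₂ Q hUnit ft f₂ G₀ Ft 1 hlc hord hnp hKt hFt f hKx hf QQ hQbar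
    hf₂0 hdiv₂ (one_mem _) hσ

/-- **The unit data from a mu-package of exponent `k`** (`k (p - 1)` prime to `p`), given at
every level `E`: `D₀` a unit of `V∞`, `D₀'` a unit of `V₀`, `D₀ · D₀' = p ^ k`, both in the
chart; `QQ D` for every `D ∈ FF (p M')` with `D · D₀ = 1` over `ℚ̄`. -/
theorem unitData_of_package (hp : p.Prime) (A : ValuationSubring Kbar)
    (hA : A.LiesOverPrime p) (QQ : FF (p * M') → Prop) (k : ℕ)
    (hcop : Nat.Coprime (k * (p - 1)) p)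
    (hpkg : ∀ E : IntermediateField ℚ Kbar, ∃ D₀ D₀' : ↥(Mod.FE E (M' * p)),
      D₀ ∈ Mod.chartAlg A E (M' * p) (Mod.xE E M' p) ∧
      D₀' ∈ Mod.chartAlg A E (M' * p) (Mod.xE E M' p) ∧
      D₀ * D₀' = algebraMap E (Mod.FE E (M' * p)) ((p : E) ^ k) ∧
      (∀ V : ValuationSubring (Mod.FE E (M' * p)), Mod.IsVinf A E (M' * p) V → D₀⁻¹ ∈ V) ∧
      (∀ (V : ValuationSubring (Mod.FE E (M' * p)))
        (W : Mod.FE E (M' * p) ≃ₐ[E] Mod.FE E (M' * p)),
        Mod.IsVinf A E (M' * p) V → Mod.IsFricke E (M' * p) W →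
          D₀'⁻¹ ∈ V.comap (W : Mod.FE E (M' * p) →+* Mod.FE E (M' * p))) ∧
      ∀ D : FF (p * M'), (D : LaurentSeries Kbar) * coeffMap (algebraMap E Kbar)
        (D₀ : LaurentSeries E) = 1 → QQ D) :
    UnitData p M' A QQ := by
  intro ζ hζ
  obtain ⟨D₀, D₀', hD, hD', hmul, hDu, hD'u, hQQ⟩ := hpkg (tameLevel A ζ)
  refine ⟨fun D₁ => D₁ = D₀, ?_, ?_⟩
  · exact unitPairAt_of_package p M' A (tameLevel A ζ) (fun D₁ => D₁ = D₀) k (p - 1)
      (fun w hw => associated_natCast_pow hp hA hζ w hw) hcop D₀ D₀' hD hD' hmul hDu hD'u rfl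
  · rintro D₁ rfl
    -- the inverse of `D₁` over `ℚ̄`: the image of `D₀' / p ^ k`
    have hN : M' * p ≠ 0 := mul_ne_zero (NeZero.ne M') hp.ne_zero
    have hpk0 : ((p : ↥(tameLevel A ζ)) ^ k) ≠ 0 :=
      pow_ne_zero k (Nat.cast_ne_zero.mpr hp.ne_zero)
    set Y : ↥(Mod.FE (tameLevel A ζ) (M' * p)) :=
      D₀' * algebraMap ↥(tameLevel A ζ) ↥(Mod.FE (tameLevel A ζ) (M' * p))
        (((p : ↥(tameLevel A ζ)) ^ k)⁻¹) with hY
    have hY1 : D₁ * Y = 1 := by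
      rw [hY, ← mul_assoc, hmul, ← map_mul, mul_inv_cancel₀ hpk0, map_one]
    have key : ∀ {N N' : ℕ} (_ : N = N') (z : LaurentSeries Kbar),
        z ∈ modularFunctionFieldBar N → z ∈ modularFunctionFieldBar N' := by
      intro N N' h z hz
      subst h
      exact hz
    have hmem : sIota (tameLevel A ζ) (M' * p) Y ∈ modularFunctionFieldBar (p * M') := by
      have h1 : sIota (tameLevel A ζ) (M' * p) Y ∈ modularFunctionFieldBar (M' * p) :=
        Fermat.Agent.S18.H602.coeffMap_mem_laurentBaseChange _ (algebraMap ↥(tameLevel A ζ) Kbar)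
          Y.2
      exact key (mul_comm M' p) _ h1
    have hprod : sIota (tameLevel A ζ) (M' * p) Y * sIota (tameLevel A ζ) (M' * p) D₁ = 1 := by
      rw [← map_mul, mul_comm Y D₁, hY1, map_one]
    have hne : (⟨sIota (tameLevel A ζ) (M' * p) Y, hmem⟩ : FF (p * M')) ≠ 0 := by
      intro h0
      have h1 : sIota (tameLevel A ζ) (M' * p) Y = 0 := congrArg Subtype.val h0
      rw [h1, zero_mul] at hprod
      exact zero_ne_one hprod
    exact ⟨⟨sIota (tameLevel A ζ) (M' * p) Y, hmem⟩, hQQ _ hprod, hne, hprod⟩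

end WildU

end Fermat.Agent.Ribet.H712.Frame

end
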